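import Fermat.Agent.MultRed.Galois

/-!
# The decomposition group at a prime of multiplicative reduction

The splitting sign and the action on the nodal model.
-/

set_option autoImplicit false

namespace Fermat.Agent.EllLocal.Mult

open WeierstrassCurve Fermat.Agent.MultRed
open scoped WeierstrassCurve.Affine

local notation "ℚ̄" => AlgebraicClosure ℚ

variable {W : WeierstrassCurve ℤ} {A : ValuationSubring ℚ̄}

/-- The fixed approximation of the node is rational; this pins down the translation in any nodal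
datum. -/
lemma nodal_r_facts (D : NodalData A.valuation (curveQbar W)) :
    6 * D.C.r ^ 2 + (curveQbar W).b₂ * D.C.r + (curveQbar W).b₄ = 0 ∧
      (D.C.u : ℚ̄) ^ 2 = 12 * D.C.r + (curveQbar W).b₂ ∧
      2 * D.C.t = -((curveQbar W).a₃ + D.C.r * (curveQbar W).a₁) ∧
      (D.C.u : ℚ̄) = (curveQbar W).a₁ + 2 * D.C.s ∧
      72 * D.a * (D.C.u : ℚ̄) ^ 6 =
        18 * (curveQbar W).b₆ - (curveQbar W).b₂ * (curveQbar W).b₄ -
          D.C.r * (curveQbar W).c₄ := by
  have hu : (D.C.u : ℚ̄) ≠ 0 := D.C.u.ne_zero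
  have hi : ((D.C.u⁻¹ : ℚ̄ˣ) : ℚ̄) = (D.C.u : ℚ̄)⁻¹ := Units.val_inv_eq_inv_val _
  have h1 : (D.C • curveQbar W).a₁ = 1 := by rw [D.hCW]; rfl
  have h3 : (D.C • curveQbar W).a₃ = 0 := by rw [D.hCW]; rfl
  have hb2 : (D.C • curveQbar W).b₂ = 1 := by rw [D.hCW]; simp [WeierstrassCurve.b₂, nodal]
  have hb4 : (D.C • curveQbar W).b₄ = 0 := by rw [D.hCW]; simp [WeierstrassCurve.b₄, nodal]
  have hb6 : (D.C • curveQbar W).b₆ = 4 * D.a := by rw [D.hCW]; simp [WeierstrassCurve.b₆, nodal]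
  rw [variableChange_a₁, hi, inv_mul_eq_iff_eq_mul₀ hu] at h1
  rw [variableChange_a₃, hi, mul_eq_zero, or_iff_right (pow_ne_zero _ (inv_ne_zero hu))] at h3
  rw [variableChange_b₂, hi, inv_pow, inv_mul_eq_iff_eq_mul₀ (pow_ne_zero _ hu)] at hb2
  rw [variableChange_b₄, hi, mul_eq_zero, or_iff_right (pow_ne_zero _ (inv_ne_zero hu))] at hb4
  rw [variableChange_b₆, hi, inv_pow, inv_mul_eq_iff_eq_mul₀ (pow_ne_zero _ hu)] at hb6
  refine ⟨by linear_combination hb4, by linear_combination -hb2, by linear_combination h3,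
    by linear_combination -h1, ?_⟩
  rw [WeierstrassCurve.c₄]
  linear_combination -18 * hb6 + ((curveQbar W).b₂ + 12 * D.C.r) * hb4

/-- Elements of the decomposition group fix the translation. -/
lemma decomp_fix_r (D : NodalData A.valuation (curveQbar W))
    (hc4 : A.valuation (curveQbar W).c₄ = 1) (ha : A.valuation D.a < 1)
    {σ : ℚ̄ ≃ₐ[ℚ] ℚ̄} (hσ : σ ∈ A.decompositionSubgroup ℚ) : σ D.C.r = D.C.r := by
  obtain ⟨hQ, hu2, -, -, h72⟩ := nodal_r_facts D
  set x₀ := (18 * (curveQbar W).b₆ - (curveQbar W).b₂ * (curveQbar W).b₄) / (curveQbar W).c₄ with hx₀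
  have hc0 : (curveQbar W).c₄ ≠ 0 := A.valuation.ne_zero_iff.1 (by rw [hc4]; exact one_ne_zero)
  have hclose : A.valuation (x₀ - D.C.r) < 1 := by
    have e : (x₀ - D.C.r) * (curveQbar W).c₄ = 72 * D.a * (D.C.u : ℚ̄) ^ 6 := by
      rw [h72, hx₀]; field_simp
    have h := congrArg A.valuation e
    rw [map_mul, hc4, mul_one] at h
    rw [h]
    exact vmul_lt_left (vmul_lt_right (vofNat_le _ 72) ha) (vpow_le 6 D.hC.u.le)
  have hσx₀ : σ x₀ = x₀ := by
    simp [hx₀, curveQbar, WeierstrassCurve.baseChange, map_ofNat]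
  have hnear : A.valuation (σ D.C.r - D.C.r) < 1 := by
    rw [show σ D.C.r - D.C.r = (x₀ - D.C.r) - σ (x₀ - D.C.r) by rw [map_sub, hσx₀]; ring]
    exact A.valuation.map_sub_lt hclose (by rw [decomp_isometry hσ]; exact hclose)
  have hroot : 6 * σ D.C.r ^ 2 + (curveQbar W).b₂ * σ D.C.r + (curveQbar W).b₄ = 0 := by
    have := congrArg σ hQ
    simpa [curveQbar, WeierstrassCurve.baseChange, map_ofNat] using this
  have hprod : (σ D.C.r - D.C.r) * (6 * (σ D.C.r - D.C.r) + (12 * D.C.r + (curveQbar W).b₂)) = 0 := by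
    linear_combination hroot - hQ
  refine sub_eq_zero.1 ((mul_eq_zero.1 hprod).resolve_right (A.valuation.ne_zero_iff.1 ?_))
  have h1 : A.valuation (12 * D.C.r + (curveQbar W).b₂) = 1 := by
    rw [← hu2, map_pow, D.hC.u, one_pow]
  rw [A.valuation.map_add_eq_of_lt_right, h1]
  · exact one_ne_zero
  · rw [h1]; exact vmul_lt_right (vofNat_le _ 6) hnear

/-- The image of the scaling factor under the decomposition group. -/
lemma decomp_u (D : NodalData A.valuation (curveQbar W))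
    (hc4 : A.valuation (curveQbar W).c₄ = 1) (ha : A.valuation D.a < 1)
    {σ : ℚ̄ ≃ₐ[ℚ] ℚ̄} (hσ : σ ∈ A.decompositionSubgroup ℚ) :
    σ (D.C.u : ℚ̄) = D.C.u ∨ σ (D.C.u : ℚ̄) = -(D.C.u : ℚ̄) := by
  obtain ⟨-, hu2, -, -, -⟩ := nodal_r_facts D
  refine sq_eq_sq_iff_eq_or_eq_neg.1 ?_
  rw [← map_pow, hu2]
  simp [decomp_fix_r D hc4 ha hσ, curveQbar, WeierstrassCurve.baseChange, map_ofNat]

open scoped Classical in
/-- The splitting sign: `1` when `σ` fixes the two tangent directions at the node, else `-1`. -/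
noncomputable def sign (W : WeierstrassCurve ℤ) (A : ValuationSubring ℚ̄)
    (σ : ℚ̄ ≃ₐ[ℚ] ℚ̄) : ℤ :=
  if ∀ D : NodalData A.valuation (curveQbar W), σ (D.C.u : ℚ̄) = D.C.u then 1 else -1

lemma sign_eq (W : WeierstrassCurve ℤ) (A : ValuationSubring ℚ̄) (σ : ℚ̄ ≃ₐ[ℚ] ℚ̄) :
    sign W A σ = 1 ∨ sign W A σ = -1 := by
  rw [sign]; split_ifs <;> simp

lemma sign_mul_self (W : WeierstrassCurve ℤ) (A : ValuationSubring ℚ̄) (σ : ℚ̄ ≃ₐ[ℚ] ℚ̄) :
    sign W A σ * sign W A σ = 1 := by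
  rcases sign_eq W A σ with h | h <;> simp [h]

/-- The node is the only critical abscissa near the approximation. -/
lemma nodal_r_unique (D D' : NodalData A.valuation (curveQbar W))
    (hc4 : A.valuation (curveQbar W).c₄ = 1) (ha : A.valuation D.a < 1)
    (ha' : A.valuation D'.a < 1) : D.C.r = D'.C.r := by
  obtain ⟨hQ, hu2, -, -, h72⟩ := nodal_r_facts D
  obtain ⟨hQ', -, -, -, h72'⟩ := nodal_r_facts D'
  have hc0 : (curveQbar W).c₄ ≠ 0 := A.valuation.ne_zero_iff.1 (by rw [hc4]; exact one_ne_zero)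
  have hnear : A.valuation (D'.C.r - D.C.r) < 1 := by
    have e : (D'.C.r - D.C.r) * (curveQbar W).c₄ =
        72 * D.a * (D.C.u : ℚ̄) ^ 6 - 72 * D'.a * (D'.C.u : ℚ̄) ^ 6 := by
      linear_combination h72' - h72
    have h := congrArg A.valuation e
    rw [map_mul, hc4, mul_one] at h
    rw [h]
    exact A.valuation.map_sub_lt
      (vmul_lt_left (vmul_lt_right (vofNat_le _ 72) ha) (vpow_le 6 D.hC.u.le))
      (vmul_lt_left (vmul_lt_right (vofNat_le _ 72) ha') (vpow_le 6 D'.hC.u.le))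
  have hprod : (D'.C.r - D.C.r) * (6 * (D'.C.r - D.C.r) + (12 * D.C.r + (curveQbar W).b₂)) = 0 := by
    linear_combination hQ' - hQ
  refine (sub_eq_zero.1 ((mul_eq_zero.1 hprod).resolve_right
    (A.valuation.ne_zero_iff.1 ?_))).symm
  have h1 : A.valuation (12 * D.C.r + (curveQbar W).b₂) = 1 := by rw [← hu2, map_pow, D.hC.u, one_pow]
  rw [A.valuation.map_add_eq_of_lt_right, h1]
  · exact one_ne_zero
  · rw [h1]; exact vmul_lt_right (vofNat_le _ 6) hnear

variable {q : ℕ}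

lemma vc₄_eq (hq : q.Prime) (hA : A.LiesOverPrime q) (hc₄ : ¬ (q : ℤ) ∣ W.c₄) :
    A.valuation (curveQbar W).c₄ = 1 := by
  rw [curveQbar_c₄]; exact vint_eq_one hq hA hc₄

/-- The sign is read off any nodal datum. -/
lemma sign_spec (hq : q.Prime) (hA : A.LiesOverPrime q) (hΔ : (q : ℤ) ∣ W.Δ)
    (hc₄ : ¬ (q : ℤ) ∣ W.c₄) (D : NodalData A.valuation (curveQbar W))
    {σ : ℚ̄ ≃ₐ[ℚ] ℚ̄} (hσ : σ ∈ A.decompositionSubgroup ℚ) :
    σ (D.C.u : ℚ̄) = (sign W A σ : ℚ̄) * (D.C.u : ℚ̄) := by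
  have hc4 := vc₄_eq hq hA hc₄
  have ha : ∀ D : NodalData A.valuation (curveQbar W), A.valuation D.a < 1 :=
    nodalData_va_lt hA hΔ
  rw [sign]
  split_ifs with h
  · rw [h D, Int.cast_one, one_mul]
  · push Not at h
    obtain ⟨D', hD'⟩ := h
    rw [Int.cast_neg, Int.cast_one, neg_one_mul]
    refine (decomp_u D hc4 (ha D) hσ).resolve_left fun hfix => hD' ?_
    have hsq : (D'.C.u : ℚ̄) ^ 2 = (D.C.u : ℚ̄) ^ 2 := by
      rw [(nodal_r_facts D').2.1, (nodal_r_facts D).2.1, nodal_r_unique D D' hc4 (ha D) (ha D')]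
    rcases sq_eq_sq_iff_eq_or_eq_neg.1 hsq with e | e <;> rw [e]
    · exact hfix
    · rw [map_neg, hfix]

lemma sign_mul (hq : q.Prime) (hA : A.LiesOverPrime q) (hΔ : (q : ℤ) ∣ W.Δ)
    (hc₄ : ¬ (q : ℤ) ∣ W.c₄) {σ τ : ℚ̄ ≃ₐ[ℚ] ℚ̄} (hσ : σ ∈ A.decompositionSubgroup ℚ)
    (hτ : τ ∈ A.decompositionSubgroup ℚ) : sign W A (σ * τ) = sign W A σ * sign W A τ := by
  obtain ⟨D⟩ := exists_nodalData_at hq hA hΔ hc₄
  have h := sign_spec hq hA hΔ hc₄ D (Subgroup.mul_mem _ hσ hτ)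
  rw [AlgEquiv.mul_apply, sign_spec hq hA hΔ hc₄ D hτ, map_mul, map_intCast,
    sign_spec hq hA hΔ hc₄ D hσ, ← mul_assoc] at h
  have := mul_right_cancel₀ D.C.u.ne_zero h
  rw [← Int.cast_mul, Int.cast_inj] at this
  rw [← this, mul_comm]

lemma sign_of_inertia (hq : q.Prime) (hA : A.LiesOverPrime q) (hΔ : (q : ℤ) ∣ W.Δ)
    (hc₄ : ¬ (q : ℤ) ∣ W.c₄) {σ : ℚ̄ ≃ₐ[ℚ] ℚ̄} (hσ : σ ∈ A.inertiaSubgroupIn ℚ) :
    sign W A σ = 1 := by
  obtain ⟨D⟩ := exists_nodalData_at hq hA hΔ hc₄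
  have h := sign_spec hq hA hΔ hc₄ D (inertia_mem_decomposition hσ)
  have hfix := (D.fixed (σ : ℚ̄ →+* ℚ̄) (decomp_isometry (inertia_mem_decomposition hσ))
    (inertia_residue hσ) (by ext <;> simp [curveQbar, WeierstrassCurve.baseChange])).1
  simp only [RingHom.coe_coe] at hfix
  rw [hfix] at h
  rcases sign_eq W A σ with e | e
  · exact e
  · rw [e, Int.cast_neg, Int.cast_one, neg_one_mul, eq_neg_iff_add_eq_zero, ← two_mul] at h
    simp at h

/-- The decomposition group on the nodal model: coordinatewise action up to the sign. -/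
lemma exists_decomp_endo (hq : q.Prime) (hA : A.LiesOverPrime q) (hΔ : (q : ℤ) ∣ W.Δ)
    (hc₄ : ¬ (q : ℤ) ∣ W.c₄) (D : NodalData A.valuation (curveQbar W))
    {σ : ℚ̄ ≃ₐ[ℚ] ℚ̄} (hσ : σ ∈ A.decompositionSubgroup ℚ) :
    ∃ τ : (nodal D.a).toAffine.Point →+ (nodal D.a).toAffine.Point,
      (∀ P, σ • nodeMap D P = sign W A σ • nodeMap D (τ P)) ∧
      (∀ (x y : ℚ̄) (h : (nodal D.a).toAffine.Nonsingular x y),
        ∃ h', τ (.some x y h) = .some (σ x) (σ y) h') ∧ σ D.a = D.a := by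
  have hr := decomp_fix_r D (vc₄_eq hq hA hc₄) (nodalData_va_lt hA hΔ D) hσ
  obtain ⟨-, -, h2t, hus, h72⟩ := nodal_r_facts D
  have hu := sign_spec hq hA hΔ hc₄ D hσ
  have hu6 : σ ((D.C.u : ℚ̄) ^ 6) = (D.C.u : ℚ̄) ^ 6 := by
    rw [map_pow, hu, mul_pow]
    rcases sign_eq W A σ with h | h <;> norm_num [h]
  have ha : σ D.a = D.a := by
    have h := congrArg σ h72
    rw [map_mul, map_mul, hu6] at h
    simp only [map_ofNat] at h
    have h' : σ (18 * (curveQbar W).b₆ - (curveQbar W).b₂ * (curveQbar W).b₄ - D.C.r * (curveQbar W).c₄) =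
        18 * (curveQbar W).b₆ - (curveQbar W).b₂ * (curveQbar W).b₄ - D.C.r * (curveQbar W).c₄ := by
      simp [hr, curveQbar, WeierstrassCurve.baseChange, map_ofNat]
    rw [h', ← h72] at h
    exact mul_left_cancel₀ (OfNat.ofNat_ne_zero 72)
      (mul_right_cancel₀ (pow_ne_zero 6 D.C.u.ne_zero) h)
  have ht : σ D.C.t = D.C.t := by
    have h := congrArg σ h2t
    simp only [map_mul, map_ofNat, map_neg, map_add, hr] at h
    have h1 : σ (curveQbar W).a₁ = (curveQbar W).a₁ := by simp [curveQbar, WeierstrassCurve.baseChange]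
    have h3 : σ (curveQbar W).a₃ = (curveQbar W).a₃ := by simp [curveQbar, WeierstrassCurve.baseChange]
    rw [h1, h3, ← h2t] at h
    exact mul_left_cancel₀ two_ne_zero h
  have hnod : (nodal D.a).map (σ : ℚ̄ →+* ℚ̄) = nodal D.a := by
    ext <;> simp [nodal, WeierstrassCurve.map, ha]
  refine ⟨pointEndo _ hnod, ?_, fun x y h => ⟨_, pointEndo_some _ hnod h⟩, ha⟩
  rintro (_ | ⟨x, y, h⟩)
  · rw [← Affine.Point.zero_def, map_zero, map_zero, map_zero]
    exact (zsmul_zero _).symm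
  rw [pointEndo_some, nodeMap_some, nodeMap_some]
  show Affine.Point.map (σ : ℚ̄ →ₐ[ℚ] ℚ̄) _ = _
  rw [Affine.Point.map_some]
  have hs2 : σ D.C.s * 2 = (sign W A σ : ℚ̄) * (D.C.u : ℚ̄) - (curveQbar W).a₁ := by
    have := congrArg σ hus
    rw [hu, map_add, map_mul, map_ofNat] at this
    have h1 : σ (curveQbar W).a₁ = (curveQbar W).a₁ := by simp [curveQbar, WeierstrassCurve.baseChange]
    rw [h1] at this
    linear_combination -this
  rcases sign_eq W A σ with hs | hs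
  · rw [hs, one_zsmul, Affine.Point.some.injEq]
    rw [hs, Int.cast_one, one_mul] at hu hs2
    have hss : σ D.C.s = D.C.s := by
      apply mul_right_cancel₀ (two_ne_zero (α := ℚ̄))
      linear_combination hs2 + hus
    simp only [vcX, vcY, map_add, map_mul, map_pow, AlgEquiv.coe_toAlgHom, hu, hr, hss, ht,
      RingHom.coe_coe, and_self]
  · rw [hs, neg_one_zsmul, Affine.Point.neg_some, Affine.Point.some.injEq]
    rw [hs, Int.cast_neg, Int.cast_one, neg_one_mul] at hu hs2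
    have hss : σ D.C.s = -D.C.s - (curveQbar W).a₁ := by
      apply mul_right_cancel₀ (two_ne_zero (α := ℚ̄))
      linear_combination hs2 - hus
    refine ⟨?_, ?_⟩
    · simp only [vcX, map_add, map_mul, map_pow, AlgEquiv.coe_toAlgHom, hu, hr, neg_sq,
        RingHom.coe_coe]
    · simp only [vcX, vcY, map_add, map_mul, map_pow, AlgEquiv.coe_toAlgHom, hu, hss, ht,
        RingHom.coe_coe, Affine.negY]
      linear_combination h2t

end Fermat.Agent.EllLocal.Mult
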