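import Fermat.Agent.EllFrobenius.Semilinear
import Fermat.Agent.EllTorsion.Count

/-!
# The determinant on torsion

The determinant of the Galois action on the torsion of prime power order is the cyclotomic
character.
-/

set_option autoImplicit false

namespace Fermat.Agent.EllLocal.Mult

open WeierstrassCurve WeierstrassCurve.Affine Fermat.Agent.EllFrobenius
open scoped WeierstrassCurve.Affine

universe r u

variable {R : Type r} [CommRing R] (W' : WeierstrassCurve.Affine R)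
  (K : Type u) [Field K] [Algebra R K] [hE : (W'⁄K).IsElliptic] [DecidableEq K] [IsAlgClosed K]

/-- If `S`, `T` generate the `ℓ^(k+1)`-torsion, then modulo `ℓ^k` the determinant of any Galois
automorphism in the basis `S, T` is its cyclotomic exponent. -/
theorem det_prime_pow {ℓ : ℕ} (hℓ : ℓ.Prime) (hℓK : (ℓ : K) ≠ 0) {k : ℕ}
    {S T : (W'⁄K).toAffine.Point} (hS : ℓ ^ (k + 1) • S = 0) (hT : ℓ ^ (k + 1) • T = 0)
    (hgen : ∀ P : (W'⁄K).toAffine.Point, ℓ ^ (k + 1) • P = 0 → ∃ i j : ℕ, P = i • S + j • T)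
    (σ : K ≃ₐ[R] K) {a b c e χ : ℕ}
    (hσS : Affine.Point.map (W' := W') σ.toAlgHom S = a • S + c • T)
    (hσT : Affine.Point.map (W' := W') σ.toAlgHom T = b • S + e • T)
    (hχ : ∀ μ : K, μ ^ ℓ ^ (k + 1) = 1 → σ μ = μ ^ χ) :
    ((a * e : ℕ) : ZMod (ℓ ^ k)) = χ + (b * c : ℕ) := by
  classical
  rcases eq_or_ne k 0 with rfl | hk
  · exact @Subsingleton.elim _ (by rw [pow_zero]; infer_instance) _ _
  obtain ⟨j, rfl⟩ : ∃ j, k = j + 1 := ⟨k - 1, by omega⟩
  set N := ℓ ^ (j + 1 + 1) with hN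
  have hN0 : N ≠ 0 := pow_ne_zero _ hℓ.ne_zero
  have hNK : (N : K) ≠ 0 := by rw [hN, Nat.cast_pow]; exact pow_ne_zero _ hℓK
  have hcard := EllTorsion.natCard_torsionBy (W := (W'⁄K).toAffine) N hNK
  let f : Fin N × Fin N → Submodule.torsionBy ℤ (W'⁄K).toAffine.Point N := fun ij =>
    ⟨(ij.1 : ℕ) • S + (ij.2 : ℕ) • T, by
      rw [Submodule.mem_torsionBy_iff, natCast_zsmul, nsmul_add, smul_comm, hS, smul_zero,
        zero_add, smul_comm, hT, smul_zero]⟩
  have hfs : Function.Surjective f := by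
    rintro ⟨P, hP⟩
    rw [Submodule.mem_torsionBy_iff, natCast_zsmul] at hP
    obtain ⟨i, l, rfl⟩ := hgen P hP
    refine ⟨(⟨i % N, Nat.mod_lt _ (Nat.pos_of_ne_zero hN0)⟩,
      ⟨l % N, Nat.mod_lt _ (Nat.pos_of_ne_zero hN0)⟩), Subtype.ext ?_⟩
    show (i % N) • S + (l % N) • T = i • S + l • T
    rw [nsmul_eq_mod_nsmul i hS, nsmul_eq_mod_nsmul l hT]
  have hfi : Function.Injective f := by
    refine (Nat.bijective_iff_surjective_and_card f).2 ⟨hfs, ?_⟩ |>.1
    rw [Nat.card_prod, Nat.card_fin, hcard, pow_two]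
  -- the pairing of the generators has order at least `ℓ^(j+1)`
  set d := ℓ ^ j with hd
  have hdS : N • (d • S) = 0 := by rw [smul_comm, hS, smul_zero]
  let g : Fin (ℓ ^ 2) × Fin N → (W'⁄K).toAffine.Point := fun ij =>
    (ij.1 : ℕ) • (d • S) + (ij.2 : ℕ) • T
  have hgi : Function.Injective g := by
    intro x y hxy
    have hlt : ∀ i : Fin (ℓ ^ 2), (i : ℕ) * d < N := fun i => by
      calc (i : ℕ) * d < ℓ ^ 2 * d := Nat.mul_lt_mul_of_pos_right i.2 (pow_pos hℓ.pos j)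
        _ = N := by rw [hd, hN]; ring
    have h := @hfi (⟨_, hlt x.1⟩, x.2) (⟨_, hlt y.1⟩, y.2) (Subtype.ext (by
      simpa [f, g, mul_nsmul'] using hxy))
    simp only [Prod.mk.injEq, Fin.mk.injEq] at h
    exact Prod.ext (Fin.ext (Nat.eq_of_mul_eq_mul_right (pow_pos hℓ.pos j) h.1)) h.2
  set G := (Finset.univ : Finset (Fin (ℓ ^ 2) × Fin N)).image g with hG
  have hGcard : 2 * N + 3 ≤ G.card := by
    rw [hG, Finset.card_image_of_injective _ hgi, Finset.card_univ, Fintype.card_prod,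
      Fintype.card_fin, Fintype.card_fin]
    have h2 := hℓ.two_le
    have hN4 : 4 ≤ N := by
      calc 4 = 2 ^ 2 := rfl
        _ ≤ ℓ ^ 2 := Nat.pow_le_pow_left h2 2
        _ ≤ N := Nat.pow_le_pow_right hℓ.pos (by omega)
    have h4 : 4 ≤ ℓ ^ 2 := by nlinarith
    nlinarith
  have hgenG : ∀ U ∈ G,
      U ∈ AddSubmonoid.closure ({d • S, T} : Set (W'⁄K).toAffine.Point) := by
    intro U hU
    obtain ⟨ij, -, rfl⟩ := Finset.mem_image.1 hU
    have m1 : d • S ∈ AddSubmonoid.closure ({d • S, T} : Set (W'⁄K).toAffine.Point) :=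
      AddSubmonoid.subset_closure (Set.mem_insert _ _)
    have m2 : T ∈ AddSubmonoid.closure ({d • S, T} : Set (W'⁄K).toAffine.Point) :=
      AddSubmonoid.subset_closure (Set.mem_insert_of_mem _ (Set.mem_singleton _))
    show (ij.1 : ℕ) • (d • S) + (ij.2 : ℕ) • T ∈ _
    exact AddSubmonoid.add_mem _ (AddSubmonoid.nsmul_mem _ m1 _) (AddSubmonoid.nsmul_mem _ m2 _)
  have hne := weil_ne_one_of_card W' K (Nat.pos_of_ne_zero hN0) hdS hT G hGcard hgenG
  rw [weil_nsmul_left W' K hS hT] at hne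
  obtain ⟨w, hw⟩ : ∃ w, weil W' K N S T = w := ⟨_, rfl⟩
  rw [hw] at hne
  have hwN : w ^ N = 1 := hw ▸ weil_pow_self W' K hS hT
  have hw0 : w ≠ 0 := hw ▸ weil_ne_zero W' K N S T
  have hfin : IsOfFinOrder w := isOfFinOrder_iff_pow_eq_one.2 ⟨N, Nat.pos_of_ne_zero hN0, hwN⟩
  have hord : ℓ ^ (j + 1) ∣ orderOf w := by
    obtain ⟨i, hi, hi'⟩ := (Nat.dvd_prime_pow hℓ).1 (orderOf_dvd_of_pow_eq_one hwN)
    rw [hi']
    refine pow_dvd_pow _ ?_
    by_contra hlt
    refine hne ?_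
    rw [hd, ← orderOf_dvd_iff_pow_eq_one, hi']
    exact pow_dvd_pow _ (by omega)
  -- transform the pairing
  have key := weil_map W' K σ hS hT
  have hk : ∀ (m : ℕ) {X : (W'⁄K).toAffine.Point}, N • X = 0 → N • (m • X) = 0 := fun m X hX => by
    rw [smul_comm, hX, smul_zero]
  rw [hσS, hσT,
    weil_add_left W' K (hk _ hS) (hk _ hT) (by rw [nsmul_add, hk _ hS, hk _ hT, add_zero]),
    weil_add_right W' K (hk _ hS) (hk _ hT) (hk _ hS),
    weil_add_right W' K (hk _ hS) (hk _ hT) (hk _ hT),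
    weil_nsmul_left W' K hS (hk _ hS), weil_nsmul_left W' K hS (hk _ hT),
    weil_nsmul_left W' K hT (hk _ hS), weil_nsmul_left W' K hT (hk _ hT),
    weil_nsmul_right W' K hS hS, weil_nsmul_right W' K hS hT,
    weil_nsmul_right W' K hT hS, weil_nsmul_right W' K hT hT,
    weil_self W' K hS, weil_self W' K hT, one_pow, one_pow, one_pow, one_pow, one_mul, mul_one,
    eq_inv_of_mul_eq_one_right (weil_swap W' K hS hT), hw, hχ w hwN, inv_pow, inv_pow,
    ← pow_mul, ← pow_mul] at key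
  have key2 : w ^ (e * a) = w ^ (χ + b * c) := by
    rw [pow_add, ← key, mul_assoc, inv_mul_cancel₀ (pow_ne_zero _ hw0), mul_one]
  rw [hfin.pow_eq_pow_iff_modEq] at key2
  have key3 := (ZMod.natCast_eq_natCast_iff _ _ _).2 (key2.of_dvd hord)
  rw [mul_comm a e, key3, Nat.cast_add]

end Fermat.Agent.EllLocal.Mult
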