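import Fermat.Agent.EllLocal.Mult.Residual
import Fermat.Agent.EllLocal.Mult.Decomp
import Fermat.Agent.EllLocal.Mult.DetPow
import Mathlib.RingTheory.RootsOfUnity.AlgebraicallyClosed

/-!
# Torsion at a prime of multiplicative reduction

The torsion of prime power order at a prime of multiplicative reduction: the line of points with
nonsingular reduction and the action of the decomposition group.
-/

set_option autoImplicit false

namespace Fermat.Agent.EllLocal.Mult

open WeierstrassCurve Fermat.Agent.MultRed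
open scoped WeierstrassCurve.Affine

local notation "ℚ̄" => AlgebraicClosure ℚ
set_option quotPrecheck false in
local notation "E(" W ")" => ((WeierstrassCurve.map W (Int.castRingHom ℚ))⁄ℚ̄).Point

variable (W : WeierstrassCurve ℤ) (A : ValuationSubring ℚ̄) {q : ℕ}

/-- A prime of multiplicative reduction, with a place above it. -/
structure IsMultAt (q : ℕ) : Prop where
  prime : q.Prime
  liesOver : A.LiesOverPrime q
  ne_zero : W.Δ ≠ 0
  dvd : (q : ℤ) ∣ W.Δ
  not_dvd : ¬ (q : ℤ) ∣ W.c₄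

variable {W A}

/-- The points with nonsingular reduction. -/
noncomputable def e0Sub (h : IsMultAt W A q) : AddSubgroup E(W) where
  carrier := {P | W.InZeroComponentAt A P}
  add_mem' := inZeroComponentAt_add h.prime h.liesOver h.ne_zero h.dvd h.not_dvd
  zero_mem' := inZeroComponentAt_zero
  neg_mem' := inZeroComponentAt_neg

lemma mem_e0Sub (h : IsMultAt W A q) {P : E(W)} : P ∈ e0Sub h ↔ W.InZeroComponentAt A P :=
  Iff.rfl

/-- The points of order dividing `m` with nonsingular reduction. -/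
noncomputable def lineSub (h : IsMultAt W A q) (m : ℕ) : AddSubgroup E(W) :=
  e0Sub h ⊓ (DistribSMul.toAddMonoidHom E(W) m).ker

section Counting

variable (h : IsMultAt W A q) (D : NodalData A.valuation (curveQbar W))
include h

/-- The value of a torsion point is a fractional power of `|Δ|`. -/
lemma exists_exponent {m : ℕ} (hm : m ≠ 0) {Q : (nodal D.a).toAffine.Point}
    (hQ : m • nodeMap D Q = 0) :
    ∃ j : ℕ, j < m ∧ phi A.valuation D.a Q ^ m = A.valuation D.a ^ j ∧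
      (j = 0 ↔ W.InZeroComponentAt A (nodeMap D Q)) := by
  have ha0 := nodalData_a_ne h.ne_zero D
  have ha := nodalData_va_lt h.liesOver h.dvd D
  rw [nodeMap_inE0_iff, inE0_iff_not_inNode ha]
  by_cases hN : InNode A.valuation D.a Q
  · obtain ⟨j, hj0, hjm, hj⟩ := exists_phi_pow ha0 ha hN hm (by
      rw [← nodeMap_inE0_iff D, map_nsmul, hQ]; exact inZeroComponentAt_zero)
    exact ⟨j, hjm, hj, iff_of_false hj0.ne' (not_not.2 hN)⟩
  · exact ⟨0, Nat.pos_of_ne_zero hm,
      by rw [phi_eq_one ha ((inE0_iff_not_inNode ha Q).2 hN), one_pow, pow_zero],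
      iff_of_true rfl hN⟩

/-- If the exponents agree up to a factor `i`, the points agree modulo nonsingular reduction. -/
lemma sub_mem_of_exponent {m : ℕ} (hm : m ≠ 0) {P R : (nodal D.a).toAffine.Point} {i j : ℕ}
    (hP : phi A.valuation D.a P ^ m = A.valuation D.a ^ (j * i))
    (hR : phi A.valuation D.a R ^ m = A.valuation D.a ^ j) :
    InE0 A.valuation (nodal D.a) (P - i • R) := by
  have ha0 := nodalData_a_ne h.ne_zero D
  have ha := nodalData_va_lt h.liesOver h.dvd D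
  have hφ : phi A.valuation D.a P = phi A.valuation D.a R ^ i := by
    refine (pow_left_inj₀ zero_le zero_le hm).1 ?_
    rw [hP, ← pow_mul, mul_comm i m, pow_mul (phi A.valuation D.a R), hR, ← pow_mul]
  have hclass : compClass ha0 ha (i • R) = compClass ha0 ha R ^ i := by
    have := congrArg Additive.toMul ((compHom ha0 ha).map_nsmul i R)
    simpa [compHom, toMul_nsmul] using this
  have hc : compClass ha0 ha (P - i • R) = 1 := by
    rw [sub_eq_add_neg, compClass_add, compClass_neg, hclass, mul_inv_eq_one]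
    simp only [compClass, ← QuotientGroup.mk_pow]
    congr 1
    exact Units.ext (by simpa using hφ)
  rw [inE0_iff_not_inNode ha]
  intro hN
  obtain ⟨h1, h2⟩ := phi_bounds ha0 ha hN
  rw [compClass, QuotientGroup.eq_one_iff, Subgroup.mem_zpowers_iff] at hc
  obtain ⟨z, hz⟩ := hc
  have hz' : A.valuation D.a ^ z = phi A.valuation D.a (P - i • R) := by
    simpa using congrArg Units.val hz
  rw [← hz'] at h1 h2
  have hA0 : 0 < A.valuation D.a :=
    lt_of_le_of_ne zero_le (A.valuation.ne_zero_iff.2 ha0).symm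
  have hz0 : 0 < z := by
    by_contra hc
    exact absurd h2 (not_lt.2 (one_le_zpow_of_nonpos₀ hA0 ha.le (not_lt.1 hc)))
  have hz1 : z < 1 := by
    by_contra hc
    exact absurd h1 (not_lt.2 (by
      simpa using zpow_le_zpow_right_of_le_one₀ hA0 ha.le (not_lt.1 hc)))
  omega

end Counting

lemma natCard_torsion_set (hΔ0 : W.Δ ≠ 0) {m : ℕ} (hm : m ≠ 0) :
    Nat.card {P : E(W) // m • P = 0} = m ^ 2 := by
  have : (curveQbar W).toAffine.IsElliptic :=
    ⟨isUnit_iff_ne_zero.2 (by rw [curveQbar_Δ, Int.cast_ne_zero]; exact hΔ0)⟩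
  rw [← EllTorsion.natCard_torsionBy (W := (curveQbar W).toAffine) m (Nat.cast_ne_zero.2 hm)]
  exact Nat.card_congr (Equiv.subtypeEquivRight fun P => by
    rw [Submodule.mem_torsionBy_iff, natCast_zsmul])

lemma finite_torsion_set (hΔ0 : W.Δ ≠ 0) {m : ℕ} (hm : m ≠ 0) :
    Finite {P : E(W) // m • P = 0} :=
  Nat.finite_of_card_ne_zero (by rw [natCard_torsion_set hΔ0 hm]; exact pow_ne_zero 2 hm)

lemma finite_lineSub (h : IsMultAt W A q) {m : ℕ} (hm : m ≠ 0) : Finite (lineSub h m) := by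
  have := finite_torsion_set h.ne_zero hm
  exact Finite.of_injective (fun P : lineSub h m => (⟨P.1, P.2.2⟩ : {P : E(W) // m • P = 0}))
    fun a b e => Subtype.ext (congrArg (fun x : {P : E(W) // m • P = 0} => x.1) e)

/-- There is `ℓ`-torsion outside the nonsingular part. -/
lemma exists_torsion_not_mem (h : IsMultAt W A q) {ℓ : ℕ} (hℓ : ℓ.Prime) :
    ∃ P : E(W), ℓ • P = 0 ∧ ¬ W.InZeroComponentAt A P := by
  obtain ⟨D⟩ := exists_nodalData_at h.prime h.liesOver h.dvd h.not_dvd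
  have ha := nodalData_va_lt h.liesOver h.dvd D
  obtain ⟨P, hP, hN⟩ := exists_torsion_inNode A (nodalData_a_ne h.ne_zero D) ha hℓ
  refine ⟨nodeMap D P, by rw [← map_nsmul, hP, map_zero], ?_⟩
  rw [nodeMap_inE0_iff, inE0_iff_not_inNode ha]
  exact not_not.2 hN

/-- The line of `ℓ^k`-torsion points with nonsingular reduction has at most `ℓ^k` points. -/
lemma natCard_lineSub_le (h : IsMultAt W A q) {ℓ : ℕ} (hℓ : ℓ.Prime) (k : ℕ) :
    Nat.card (lineSub h (ℓ ^ k)) ≤ ℓ ^ k := by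
  induction k with
  | zero =>
    have : Subsingleton (lineSub h (ℓ ^ 0)) := ⟨fun a b => Subtype.ext (by
      have ha : ℓ ^ 0 • (a : E(W)) = 0 := a.2.2
      have hb : ℓ ^ 0 • (b : E(W)) = 0 := b.2.2
      simp only [pow_zero, one_smul] at ha hb
      rw [ha, hb])⟩
    rw [Nat.card_unique, pow_zero]
  | succ k ih =>
    have := finite_lineSub h (pow_ne_zero (k + 1) hℓ.ne_zero)
    have := finite_lineSub h (pow_ne_zero k hℓ.ne_zero)
    have h1 : Nat.card (lineSub h ℓ) ≤ ℓ := by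
      have := finite_torsion_set h.ne_zero hℓ.ne_zero (W := W)
      let T : AddSubgroup E(W) := (DistribSMul.toAddMonoidHom E(W) ℓ).ker
      have hTcard : Nat.card T = ℓ ^ 2 := natCard_torsion_set h.ne_zero hℓ.ne_zero
      have : Finite T := this
      have hle : lineSub h ℓ ≤ T := inf_le_right
      obtain ⟨i, hi, hci⟩ :=
        (Nat.dvd_prime_pow hℓ).1 (hTcard ▸ AddSubgroup.card_dvd_of_le hle)
      rcases (by omega : i ≤ 1 ∨ i = 2) with hi' | rfl
      · rw [hci]; exact (Nat.pow_le_pow_right hℓ.pos hi').trans (pow_one ℓ).le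
      · obtain ⟨P, hP, hP0⟩ := exists_torsion_not_mem h hℓ
        have heq : lineSub h ℓ = T := AddSubgroup.eq_of_le_of_card_ge hle (by rw [hci, hTcard])
        exact absurd (heq.ge (show P ∈ T from hP)).1 hP0
    let g : lineSub h (ℓ ^ (k + 1)) →+ lineSub h (ℓ ^ k) :=
      { toFun := fun P => ⟨ℓ • (P : E(W)), (e0Sub h).nsmul_mem P.2.1 ℓ, by
          show ℓ ^ k • ℓ • (P : E(W)) = 0
          rw [← mul_nsmul', ← pow_succ]
          exact P.2.2⟩
        map_zero' := Subtype.ext (nsmul_zero ℓ)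
        map_add' := fun P R => Subtype.ext (nsmul_add (P : E(W)) R ℓ) }
    have hker : Nat.card g.ker ≤ ℓ := by
      have := finite_lineSub h hℓ.ne_zero
      refine le_trans (Nat.card_le_card_of_injective
        (fun P : g.ker => (⟨(P : lineSub h (ℓ ^ (k + 1))), P.1.2.1,
          congrArg Subtype.val P.2⟩ : lineSub h ℓ)) fun a b e => ?_) h1
      exact Subtype.ext (Subtype.ext (congrArg (fun x : lineSub h ℓ => (x : E(W))) e))
    rw [← AddSubgroup.card_mul_index g.ker, AddSubgroup.index_ker]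
    calc Nat.card g.ker * Nat.card g.range ≤ ℓ * ℓ ^ k := by
          refine Nat.mul_le_mul hker (le_trans ?_ ih)
          exact Nat.card_le_card_of_injective (fun x : g.range => (x : lineSub h (ℓ ^ k)))
            Subtype.val_injective
      _ = ℓ ^ (k + 1) := by rw [pow_succ']

/-- The line of `ℓ^k`-torsion points with nonsingular reduction has exactly `ℓ^k` points, and
every exponent occurs. -/
lemma natCard_lineSub (h : IsMultAt W A q) {ℓ : ℕ} (hℓ : ℓ.Prime) (k : ℕ)
    (D : NodalData A.valuation (curveQbar W)) :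
    Nat.card (lineSub h (ℓ ^ k)) = ℓ ^ k ∧ ∀ j < ℓ ^ k, ∃ Q : (nodal D.a).toAffine.Point,
      ℓ ^ k • nodeMap D Q = 0 ∧ phi A.valuation D.a Q ^ (ℓ ^ k) = A.valuation D.a ^ j := by
  classical
  set m := ℓ ^ k with hm
  have hm0 : m ≠ 0 := pow_ne_zero k hℓ.ne_zero
  have := finite_torsion_set h.ne_zero hm0 (W := W)
  have := Fintype.ofFinite {P : E(W) // m • P = 0}
  have := finite_lineSub h hm0
  choose pre hpre using (nodeMap_bijective D).2
  have key : ∀ P : {P : E(W) // m • P = 0}, ∃ j : Fin m,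
      phi A.valuation D.a (pre P.1) ^ m = A.valuation D.a ^ (j : ℕ) := by
    intro P
    obtain ⟨j, hj, hj', -⟩ := exists_exponent h D hm0 (Q := pre P.1) (by rw [hpre]; exact P.2)
    exact ⟨⟨j, hj⟩, hj'⟩
  choose f hf using key
  have hfib : ∀ j : Fin m, (Finset.univ.filter fun P => f P = j).card ≤ Nat.card (lineSub h m) := by
    intro j
    by_cases he : (Finset.univ.filter fun P => f P = j).Nonempty
    swap
    · rw [Finset.not_nonempty_iff_eq_empty.1 he, Finset.card_empty]; exact Nat.zero_le _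
    obtain ⟨R, hR⟩ := he
    rw [Finset.mem_filter] at hR
    rw [← Nat.card_eq_finsetCard]
    refine Nat.card_le_card_of_injective
      (fun P => (⟨P.1.1 - R.1, ?_, ?_⟩ : lineSub h m))
      (fun a b e => Subtype.ext (Subtype.ext
        (sub_left_injective (congrArg (fun x : lineSub h m => (x : E(W))) e))))
    · have hP := (Finset.mem_filter.1 P.2).2
      have h0 := sub_mem_of_exponent h D hm0 (i := 1) (P := pre P.1.1) (R := pre R.1)
        (by rw [hf, hP, ← hR.2, mul_one]) (hf R)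
      rw [one_nsmul] at h0
      have := (nodeMap_inE0_iff D _).2 h0
      rwa [map_sub, hpre, hpre] at this
    · show m • (P.1.1 - R.1) = 0
      rw [nsmul_sub, P.1.2, R.2, sub_zero]
  have hsum : m ^ 2 = ∑ j : Fin m, (Finset.univ.filter fun P => f P = j).card := by
    rw [← natCard_torsion_set h.ne_zero hm0 (W := W), Nat.card_eq_fintype_card, ← Finset.card_univ]
    exact Finset.card_eq_sum_card_fiberwise fun P _ => Finset.mem_univ _
  have hC : Nat.card (lineSub h m) ≤ m := natCard_lineSub_le h hℓ k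
  refine ⟨le_antisymm hC ?_, ?_⟩
  · have : m ^ 2 ≤ m * Nat.card (lineSub h m) := by
      rw [hsum]
      refine (Finset.sum_le_sum fun j _ => hfib j).trans ?_
      rw [Finset.sum_const, Finset.card_univ, Fintype.card_fin, smul_eq_mul]
    rw [pow_two] at this
    exact Nat.le_of_mul_le_mul_left this (Nat.pos_of_ne_zero hm0)
  · intro j hj
    by_contra hc
    push Not at hc
    have hempty : (Finset.univ.filter fun P => f P = (⟨j, hj⟩ : Fin m)).card = 0 := by
      rw [Finset.card_eq_zero, Finset.filter_eq_empty_iff]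
      intro P _ hP
      exact hc (pre P.1) (by rw [hpre]; exact P.2) (by rw [hf, hP])
    have : m ^ 2 < m * m := by
      rw [hsum]
      calc ∑ j : Fin m, (Finset.univ.filter fun P => f P = j).card
          < ∑ _j : Fin m, m := Finset.sum_lt_sum (fun i _ => (hfib i).trans hC)
            ⟨⟨j, hj⟩, Finset.mem_univ _, by rw [hempty]; exact Nat.pos_of_ne_zero hm0⟩
        _ = m * m := by simp
    rw [pow_two] at this
    exact lt_irrefl _ this

/-- Generators of the `ℓ^k`-torsion adapted to the line. -/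
theorem exists_adapted_generators (h : IsMultAt W A q) {ℓ : ℕ} (hℓ : ℓ.Prime) (k : ℕ) :
    ∃ P₁ P₂ : E(W), ℓ ^ k • P₁ = 0 ∧ ℓ ^ k • P₂ = 0 ∧ addOrderOf P₁ = ℓ ^ k ∧
      W.InZeroComponentAt A P₁ ∧
      (∀ P : E(W), ℓ ^ k • P = 0 → W.InZeroComponentAt A P → ∃ i : ℕ, P = i • P₁) ∧
      (∀ P : E(W), ℓ ^ k • P = 0 → ∃ i j : ℕ, P = i • P₁ + j • P₂) ∧
      (∀ j : ℕ, W.InZeroComponentAt A (j • P₂) → ℓ ^ k ∣ j) := by
  classical
  obtain ⟨D⟩ := exists_nodalData_at h.prime h.liesOver h.dvd h.not_dvd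
  set m := ℓ ^ k with hm
  have hm0 : m ≠ 0 := pow_ne_zero k hℓ.ne_zero
  obtain ⟨hcard, hsurj⟩ := natCard_lineSub h hℓ k D
  have := finite_lineSub h hm0
  -- a point of exact order `m` on the line
  obtain ⟨P₁, hP₁, hord⟩ : ∃ P : E(W), P ∈ lineSub h m ∧ addOrderOf P = m := by
    by_contra hc
    push Not at hc
    rcases eq_or_ne k 0 with rfl | hk
    · exact hc 0 (AddSubgroup.zero_mem _) (by rw [addOrderOf_zero, hm, pow_zero])
    obtain ⟨j, rfl⟩ : ∃ j, k = j + 1 := ⟨k - 1, by omega⟩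
    have := finite_lineSub h (pow_ne_zero j hℓ.ne_zero)
    have hle : Nat.card (lineSub h m) ≤ Nat.card (lineSub h (ℓ ^ j)) :=
      Nat.card_le_card_of_injective (fun P => (⟨P.1, P.2.1, ?_⟩ : lineSub h (ℓ ^ j)))
        (fun a b e => Subtype.ext (congrArg (fun x : lineSub h (ℓ ^ j) => (x : E(W))) e))
    · have h2 := natCard_lineSub_le h hℓ j
      rw [hcard] at hle
      exact absurd (hle.trans h2) (not_le.2 (Nat.pow_lt_pow_right hℓ.one_lt (by omega)))
    · show ℓ ^ j • (P : E(W)) = 0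
      obtain ⟨i, hi, hi'⟩ :=
        (Nat.dvd_prime_pow hℓ).1 (addOrderOf_dvd_iff_nsmul_eq_zero.2 P.2.2)
      have hne := hc P.1 P.2
      rw [hi', hm] at hne
      refine addOrderOf_dvd_iff_nsmul_eq_zero.1 (hi' ▸ pow_dvd_pow _ ?_)
      rcases lt_or_eq_of_le hi with hlt | rfl
      · omega
      · exact absurd rfl hne
  have hgen : ∀ P : E(W), m • P = 0 → W.InZeroComponentAt A P → ∃ i : ℕ, P = i • P₁ := by
    intro P hP hP0
    have hle : AddSubgroup.zmultiples P₁ ≤ lineSub h m := by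
      rw [AddSubgroup.zmultiples_le]; exact hP₁
    have heq := AddSubgroup.eq_of_le_of_card_ge hle (by
      rw [Nat.card_zmultiples, hord, hcard])
    have hmem : P ∈ AddSubgroup.zmultiples P₁ := heq.ge ⟨hP0, hP⟩
    obtain ⟨i, hi, rfl⟩ : ∃ i : ℕ, i < addOrderOf P₁ ∧ i • P₁ = P := by
      have hfin : IsOfFinAddOrder P₁ := addOrderOf_pos_iff.1 (by rw [hord]; exact Nat.pos_of_ne_zero hm0)
      exact hfin.mem_zmultiples_iff_mem_range_addOrderOf.1 hmem |> Finset.mem_image.1 |>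
        fun ⟨i, hi, he⟩ => ⟨i, Finset.mem_range.1 hi, he⟩
    exact ⟨i, rfl⟩
  by_cases hm1 : m = 1
  · refine ⟨P₁, 0, hP₁.2, nsmul_zero _, hord, hP₁.1, hgen, fun P hP => ⟨0, 0, ?_⟩,
      fun j _ => hm1 ▸ one_dvd j⟩
    rw [hm1, one_smul] at hP
    rw [hP, zero_nsmul, zero_nsmul, add_zero]
  obtain ⟨Q, hQ, hQ1⟩ := hsurj 1 (by omega)
  refine ⟨P₁, nodeMap D Q, hP₁.2, hQ, hord, hP₁.1, hgen, ?_, ?_⟩
  · intro P hP
    obtain ⟨R, rfl⟩ := (nodeMap_bijective D).2 P
    obtain ⟨j, -, hj, -⟩ := exists_exponent h D hm0 hP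
    have h0 := (nodeMap_inE0_iff D _).2
      (sub_mem_of_exponent h D hm0 (i := j) (j := 1) (by rw [one_mul]; exact hj) hQ1)
    rw [map_sub, map_nsmul] at h0
    obtain ⟨i, hi⟩ := hgen _ (by rw [nsmul_sub, hP, smul_comm, hQ, nsmul_zero, sub_zero]) h0
    exact ⟨i, j, by rw [← hi, sub_add_cancel]⟩
  · intro j hj
    have ha0 := nodalData_a_ne h.ne_zero D
    have ha := nodalData_va_lt h.liesOver h.dvd D
    rw [← map_nsmul, nodeMap_inE0_iff] at hj
    have hclass : compClass ha0 ha Q ^ j = 1 := by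
      have := congrArg Additive.toMul ((compHom ha0 ha).map_nsmul j Q)
      simp only [compHom, AddMonoidHom.coe_mk, ZeroHom.coe_mk, toMul_ofMul, toMul_nsmul] at this
      rw [← this]; exact compClass_of_inE0 ha0 ha hj
    rw [compClass, ← QuotientGroup.mk_pow, QuotientGroup.eq_one_iff,
      Subgroup.mem_zpowers_iff] at hclass
    obtain ⟨z, hz⟩ := hclass
    have hz' : A.valuation D.a ^ z = phi A.valuation D.a Q ^ j := by
      simpa using congrArg Units.val hz
    have h2 : A.valuation D.a ^ (z * (m : ℤ)) = A.valuation D.a ^ (j : ℤ) := by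
      rw [zpow_mul, hz', zpow_natCast, zpow_natCast, ← pow_mul, mul_comm, pow_mul, hQ1, pow_one]
    have hA0 : 0 < A.valuation D.a :=
      lt_of_le_of_ne zero_le (A.valuation.ne_zero_iff.2 ha0).symm
    have h3 : z * (m : ℤ) = j := (zpow_right_strictAnti₀ hA0 ha).injective h2
    exact Int.natCast_dvd_natCast.1 ⟨z, by rw [← h3, mul_comm]⟩

/-- The decomposition group acts on the quotient by the line through the splitting sign. -/
theorem smul_sub_sign_smul_mem (h : IsMultAt W A q) {σ : ℚ̄ ≃ₐ[ℚ] ℚ̄}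
    (hσ : σ ∈ A.decompositionSubgroup ℚ) (P : E(W)) :
    W.InZeroComponentAt A (σ • P - sign W A σ • P) := by
  obtain ⟨D⟩ := exists_nodalData_at h.prime h.liesOver h.dvd h.not_dvd
  obtain ⟨τ, hτ, hτs, -⟩ := exists_decomp_endo h.prime h.liesOver h.dvd h.not_dvd D hσ
  obtain ⟨P, rfl⟩ := (nodeMap_bijective D).2 P
  rw [hτ, ← zsmul_sub, ← map_sub, ← mem_e0Sub h]
  refine (e0Sub h).zsmul_mem ?_ _
  rw [mem_e0Sub, nodeMap_inE0_iff]
  refine inE0_sub_of_phi_eq (nodalData_a_ne h.ne_zero D) (nodalData_va_lt h.liesOver h.dvd D) ?_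
  rcases P with _ | ⟨x, y, hP⟩
  · rw [← Affine.Point.zero_def, map_zero]
  obtain ⟨h', he⟩ := hτs x y hP
  rw [he]
  exact phi_endo (decomp_isometry hσ) (map_add σ)

/-- The decomposition group preserves nonsingular reduction. -/
theorem smul_mem_e0 (h : IsMultAt W A q) {σ : ℚ̄ ≃ₐ[ℚ] ℚ̄}
    (hσ : σ ∈ A.decompositionSubgroup ℚ) {P : E(W)} (hP : W.InZeroComponentAt A P) :
    W.InZeroComponentAt A (σ • P) := by
  have h1 := (e0Sub h).add_mem (smul_sub_sign_smul_mem h hσ P)
    ((e0Sub h).zsmul_mem (show P ∈ e0Sub h from hP) (sign W A σ))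
  rwa [sub_add_cancel] at h1

/-- On the line the decomposition group acts by the sign times the cyclotomic character. -/
theorem smul_eq_of_mem_line (h : IsMultAt W A q) {ℓ : ℕ} (hℓ : ℓ.Prime) {k : ℕ}
    {σ : ℚ̄ ≃ₐ[ℚ] ℚ̄} (hσ : σ ∈ A.decompositionSubgroup ℚ) {a : ℕ}
    (ha : ∀ μ : ℚ̄, μ ^ ℓ ^ k = 1 → σ μ = μ ^ a)
    {P : E(W)} (hP : W.InZeroComponentAt A P) (hkP : ℓ ^ k • P = 0) :
    σ • P = sign W A σ • (a • P) := by
  classical
  obtain ⟨P₁, P₂, hP₁, hP₂, -, hP₁0, hgen1, hgen, -⟩ := exists_adapted_generators h hℓ (k + 1)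
  set N := ℓ ^ (k + 1) with hN
  have hN0 : N ≠ 0 := pow_ne_zero _ hℓ.ne_zero
  have : NeZero N := ⟨hN0⟩
  have : NeZero ((N : ℕ) : ℚ̄) := ⟨Nat.cast_ne_zero.2 hN0⟩
  obtain ⟨ζ, hζ⟩ := HasEnoughRootsOfUnity.exists_primitiveRoot ℚ̄ N
  obtain ⟨χ, -, hχζ⟩ := hζ.eq_pow_of_pow_eq_one (show σ ζ ^ N = 1 by
    rw [← map_pow, hζ.pow_eq_one, map_one])
  have hχ : ∀ μ : ℚ̄, μ ^ N = 1 → σ μ = μ ^ χ := fun μ hμ => by
    obtain ⟨i, -, rfl⟩ := hζ.eq_pow_of_pow_eq_one hμ
    rw [map_pow, ← hχζ, ← pow_mul, ← pow_mul, mul_comm]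
  have hχa : (χ : ZMod (ℓ ^ k)) = a := by
    have hζk : IsPrimitiveRoot (ζ ^ ℓ) (ℓ ^ k) :=
      hζ.pow (Nat.pos_of_ne_zero hN0) (by rw [hN, pow_succ'])
    have e := (ha _ hζk.pow_eq_one).symm.trans
      (hχ _ (by rw [← pow_mul, mul_comm, pow_mul, hζ.pow_eq_one, one_pow]))
    rw [ZMod.natCast_eq_natCast_iff, hζk.eq_orderOf]
    exact ((hζk.isOfFinOrder (pow_ne_zero k hℓ.ne_zero)).pow_eq_pow_iff_modEq).1 e.symm
  obtain ⟨c₁, hc₁⟩ := hgen1 (σ • P₁)
    (by rw [Affine.Point.algEquiv_smul_def, ← map_nsmul, hP₁, map_zero]) (smul_mem_e0 h hσ hP₁0)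
  obtain ⟨b, hb⟩ := hgen1 (σ • P₂ - sign W A σ • P₂)
    (by rw [nsmul_sub, Affine.Point.algEquiv_smul_def, ← map_nsmul, hP₂, map_zero,
      smul_comm, hP₂, zsmul_zero, sub_zero])
    (smul_sub_sign_smul_mem h hσ P₂)
  obtain ⟨e, he⟩ : ∃ e : ℕ, (e : ZMod N) = (sign W A σ : ZMod N) :=
    ⟨(sign W A σ : ZMod N).val, ZMod.natCast_zmod_val _⟩
  have hsm : ∀ {X : E(W)}, N • X = 0 → sign W A σ • X = e • X := by
    intro X hX
    rw [← natCast_zsmul X e, zsmul_eq_zsmul_iff_modEq]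
    refine Int.ModEq.of_dvd (Int.natCast_dvd_natCast.2 (addOrderOf_dvd_of_nsmul_eq_zero hX)) ?_
    rw [← ZMod.intCast_eq_intCast_iff]
    simpa using he.symm
  have : ((W.map (Int.castRingHom ℚ))⁄ℚ̄).IsElliptic :=
    ⟨isUnit_iff_ne_zero.2 (by
      show (curveQbar W).Δ ≠ 0
      rw [curveQbar_Δ, Int.cast_ne_zero]; exact h.ne_zero)⟩
  have key := det_prime_pow (W' := W.map (Int.castRingHom ℚ)) ℚ̄ hℓ
    (Nat.cast_ne_zero.2 hℓ.ne_zero) hP₁ hP₂ hgen σ (a := c₁) (c := 0) (b := b) (e := e) (χ := χ)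
    (by rw [zero_smul, add_zero, ← hc₁]; rfl)
    (by rw [← hb, ← hsm hP₂, sub_add_cancel]; rfl) hχ
  obtain ⟨i, rfl⟩ := hgen1 P (by rw [hN, pow_succ', mul_nsmul', hkP, nsmul_zero]) hP
  rw [Affine.Point.algEquiv_smul_def, map_nsmul, ← Affine.Point.algEquiv_smul_def, hc₁,
    ← natCast_zsmul (c₁ • P₁) i, ← natCast_zsmul P₁ c₁, ← natCast_zsmul (i • P₁) a,
    ← natCast_zsmul P₁ i, smul_smul, smul_smul, smul_smul, mul_comm (i : ℤ) c₁, mul_smul,
    mul_smul, natCast_zsmul P₁ i, zsmul_eq_zsmul_iff_modEq]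
  refine Int.ModEq.of_dvd (Int.natCast_dvd_natCast.2 (addOrderOf_dvd_of_nsmul_eq_zero hkP)) ?_
  rw [← ZMod.intCast_eq_intCast_iff]
  push_cast at key ⊢
  rw [mul_zero, add_zero, hχa] at key
  have he' : (e : ZMod (ℓ ^ k)) = (sign W A σ : ZMod (ℓ ^ k)) := by
    have := congrArg (ZMod.castHom (show ℓ ^ k ∣ N from pow_dvd_pow _ k.le_succ) (ZMod (ℓ ^ k))) he
    simpa using this
  have hs : (sign W A σ : ZMod (ℓ ^ k)) * (sign W A σ : ZMod (ℓ ^ k)) = 1 := by
    rw [← Int.cast_mul, sign_mul_self, Int.cast_one]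
  rw [← key, he']
  linear_combination -(c₁ : ZMod (ℓ ^ k)) * hs

end Fermat.Agent.EllLocal.Mult
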