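import Fermat.Agent.EllLocal.Mult.Structure
import Fermat.Agent.MultRed.Frey

/-!
# The Frey curve at its bad primes

Every prime dividing `abc` is a prime of multiplicative reduction, and at the odd ones the
valuation of the discriminant is divisible by `p`.
-/

set_option autoImplicit false

namespace Fermat.Agent.EllLocal.Mult

open WeierstrassCurve Fermat.Agent.MultRed

variable (P : FreyPackage)

lemma dvd_abc_iff_dvd_Δ {q : ℕ} (hq : q.Prime) :
    (q : ℤ) ∣ P.freyCurveInt.Δ ↔ (q : ℤ) ∣ P.a * P.b * P.c := by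
  rcases eq_or_ne q 2 with rfl | hq2
  · exact iff_of_true (two_dvd_freyCurveInt_Δ P) (by exact_mod_cast P.two_dvd_abc)
  · exact dvd_freyCurveInt_Δ_iff P hq hq2

/-- Every prime dividing `abc` is a prime of multiplicative reduction. -/
theorem isMultAt_freyCurveInt {A : ValuationSubring (AlgebraicClosure ℚ)} {q : ℕ} (hq : q.Prime)
    (hA : A.LiesOverPrime q) (h : (q : ℤ) ∣ P.a * P.b * P.c) :
    IsMultAt P.freyCurveInt A q :=
  ⟨hq, hA, freyCurveInt_Δ_ne_zero P, (dvd_abc_iff_dvd_Δ P hq).2 h,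
    not_dvd_freyCurveInt_c₄ P hq ((dvd_abc_iff_dvd_Δ P hq).2 h)⟩

/-- At `p` and at every odd bad prime the valuation of the discriminant is divisible by `p`. -/
theorem p_dvd_padicValInt {q : ℕ} (hq : q.Prime) (hq2 : q ≠ 2) :
    P.p ∣ padicValInt q P.freyCurveInt.Δ := by
  have := Fact.mk hq
  rw [padicValInt_freyCurveInt_Δ P hq2]
  exact Dvd.dvd.mul_right (dvd_mul_left _ _) _

end Fermat.Agent.EllLocal.Mult
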