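import Fermat.Agent.MultRed.Galois
import Fermat.Prelude.Def_EllipticCurve_FrobeniusTrace

/-!
# Square roots of integers and the decomposition group

Frobenius and inertia on `√u`.
-/

set_option autoImplicit false

namespace Fermat.Agent.EllLocal.Mult

open Fermat.Agent.MultRed

local notation "ℚ̄" => AlgebraicClosure ℚ

variable {A : ValuationSubring ℚ̄} {q : ℕ}

/-- A Frobenius element reduces to the `q`-th power. -/
lemma frobenius_residue {σ : ℚ̄ ≃ₐ[ℚ] ℚ̄} (hσ : A.IsFrobeniusAt σ q) {x : ℚ̄}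
    (hx : A.valuation x ≤ 1) : A.valuation (σ x - x ^ q) < 1 := by
  set a : A := ⟨x, (A.valuation_le_one_iff x).1 hx⟩ with ha
  set τ : A.decompositionSubgroup ℚ := ⟨σ, hσ.mem_decompositionSubgroup⟩ with hτ
  have h1 : IsLocalRing.residue A (τ • a) = IsLocalRing.residue A (a ^ q) := by
    rw [IsLocalRing.ResidueField.residue_smul, map_pow]
    exact hσ.smul_residue_eq _
  have h2 : τ • a - a ^ q ∈ IsLocalRing.maximalIdeal A := Ideal.Quotient.eq.1 h1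
  exact (A.valuation_lt_one_iff _).1 h2

lemma map_eq_or_eq_neg (σ : ℚ̄ ≃ₐ[ℚ] ℚ̄) {s : ℚ̄} {z : ℤ} (hs : s ^ 2 = (z : ℚ̄)) :
    σ s = s ∨ σ s = -s :=
  sq_eq_sq_iff_eq_or_eq_neg.1 (by rw [← map_pow, hs, map_intCast])

lemma valuation_sqrt_eq_one (hq : q.Prime) (hA : A.LiesOverPrime q) {s : ℚ̄} {u : ℤ}
    (hu : ¬ (q : ℤ) ∣ u) (hs : s ^ 2 = (u : ℚ̄)) : A.valuation s = 1 :=
  (pow_eq_one_iff.1 (by rw [← map_pow, hs, vint_eq_one hq hA hu])).resolve_right two_ne_zero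

lemma not_eq_neg_of_near (hq : q.Prime) (hA : A.LiesOverPrime q) (hq2 : q ≠ 2) {s t : ℚ̄}
    (hs : A.valuation s = 1) (ht : A.valuation (t - s) < 1) : t ≠ -s := by
  rintro rfl
  rw [show -s - s = -((2 : ℕ) * s : ℚ̄) by push_cast; ring, Valuation.map_neg, map_mul, hs,
    mul_one, vnat_eq_one hq hA (fun h => hq2 ((Nat.prime_dvd_prime_iff_eq hq Nat.prime_two).1 h))]
    at ht
  exact lt_irrefl _ ht

/-- At an odd prime inertia fixes square roots of units. -/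
lemma inertia_sqrt (hq : q.Prime) (hA : A.LiesOverPrime q) (hq2 : q ≠ 2) {s : ℚ̄} {u : ℤ}
    (hu : ¬ (q : ℤ) ∣ u) (hs : s ^ 2 = (u : ℚ̄)) {σ : ℚ̄ ≃ₐ[ℚ] ℚ̄}
    (hσ : σ ∈ A.inertiaSubgroupIn ℚ) : σ s = s :=
  have hv := valuation_sqrt_eq_one hq hA hu hs
  (map_eq_or_eq_neg σ hs).resolve_right
    (not_eq_neg_of_near hq hA hq2 hv (inertia_residue hσ s hv.le))

/-- At an odd prime the decomposition group fixes square roots of unit squares mod `q`. -/
lemma decomp_sqrt (hq : q.Prime) (hA : A.LiesOverPrime q) (hq2 : q ≠ 2) {s : ℚ̄} {u : ℤ}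
    (hu : ¬ (q : ℤ) ∣ u) (hsq : IsSquare (u : ZMod q)) (hs : s ^ 2 = (u : ℚ̄))
    {σ : ℚ̄ ≃ₐ[ℚ] ℚ̄} (hσ : σ ∈ A.decompositionSubgroup ℚ) : σ s = s := by
  obtain ⟨w, hw⟩ := hsq
  obtain ⟨c, rfl⟩ := ZMod.intCast_surjective w
  have hd : A.valuation ((u - c * c : ℤ) : ℚ̄) < 1 := vint_lt_one hA
    ((ZMod.intCast_zmod_eq_zero_iff_dvd _ q).1 (by push_cast; rw [hw, sub_self]))
  rw [show ((u - c * c : ℤ) : ℚ̄) = (s - (c : ℚ̄)) * (s + (c : ℚ̄)) by
    push_cast; linear_combination -hs, map_mul] at hd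
  have hv := valuation_sqrt_eq_one hq hA hu hs
  obtain ⟨e, he⟩ : ∃ e : ℤ, A.valuation (s - (e : ℚ̄)) < 1 := by
    by_contra hcon
    push Not at hcon
    have h2 := hcon (-c)
    rw [Int.cast_neg, sub_neg_eq_add] at h2
    exact absurd hd (not_lt.2 (one_le_mul (hcon c) h2))
  refine (map_eq_or_eq_neg σ hs).resolve_right (not_eq_neg_of_near hq hA hq2 hv ?_)
  rw [show σ s - s = σ (s - (e : ℚ̄)) - (s - (e : ℚ̄)) by rw [map_sub, map_intCast]; ring]
  exact A.valuation.map_sub_lt (by rwa [decomp_isometry hσ]) he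

/-- At an odd prime Frobenius fixes `√u` exactly when `u` is a square mod `q`. -/
theorem frobenius_sqrt_iff (hq : q.Prime) (hA : A.LiesOverPrime q) (hq2 : q ≠ 2) {s : ℚ̄} {u : ℤ}
    (hu : ¬ (q : ℤ) ∣ u) (hs : s ^ 2 = (u : ℚ̄))
    {σ : ℚ̄ ≃ₐ[ℚ] ℚ̄} (hσ : A.IsFrobeniusAt σ q) : σ s = s ↔ IsSquare (u : ZMod q) := by
  have := Fact.mk hq
  refine ⟨fun hfix => ?_, fun h => decomp_sqrt hq hA hq2 hu h hs hσ.mem_decompositionSubgroup⟩
  by_contra hns
  have hu0 : (u : ZMod q) ≠ 0 := fun h => hu ((ZMod.intCast_zmod_eq_zero_iff_dvd u q).1 h)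
  have hodd : q % 2 = 1 := hq.eq_two_or_odd.resolve_left hq2
  have hhalf : (u : ZMod q) ^ (q / 2) = -1 := by
    rcases ZMod.pow_div_two_eq_neg_one_or_one q hu0 with h | h
    · exact absurd ((ZMod.euler_criterion q hu0).2 h) hns
    · exact h
  have hd : A.valuation ((u ^ (q / 2) + 1 : ℤ) : ℚ̄) < 1 := vint_lt_one hA
    ((ZMod.intCast_zmod_eq_zero_iff_dvd _ q).1 (by push_cast; rw [hhalf, neg_add_cancel]))
  have hv := valuation_sqrt_eq_one hq hA hu hs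
  have hfr := frobenius_residue hσ hv.le
  rw [hfix] at hfr
  refine not_eq_neg_of_near hq hA hq2 hv (t := -s) ?_ rfl
  rw [show -s - s = (s ^ q + -s) - (s ^ q + s) + 0 by ring, add_zero]
  refine A.valuation.map_sub_lt ?_ ?_
  · rw [← Valuation.map_neg, neg_add, neg_neg, add_comm, ← sub_eq_add_neg]
    exact hfr
  · have e : s ^ q + s = s * ((u ^ (q / 2) + 1 : ℤ) : ℚ̄) := by
      conv_lhs => rw [show q = 2 * (q / 2) + 1 by omega, pow_succ, pow_mul, hs]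
      push_cast; ring
    rw [e, map_mul, hv, one_mul]
    exact hd

end Fermat.Agent.EllLocal.Mult
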