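import Fermat.Agent.EllLocal.Mult.Structure
import Fermat.Agent.EllLocal.Mult.Square

/-!
# The sign of Frobenius at a prime of multiplicative reduction

The splitting sign of a Frobenius element.
-/

set_option autoImplicit false

namespace Fermat.Agent.EllLocal.Mult

open WeierstrassCurve Fermat.Agent.MultRed

local notation "ℚ̄" => AlgebraicClosure ℚ

variable {W : WeierstrassCurve ℤ} {A : ValuationSubring ℚ̄} {q : ℕ}

lemma sign_eq_one_iff (h : IsMultAt W A q) (D : NodalData A.valuation (curveQbar W))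
    {σ : ℚ̄ ≃ₐ[ℚ] ℚ̄} (hσ : σ ∈ A.decompositionSubgroup ℚ) :
    sign W A σ = 1 ↔ σ (D.C.u : ℚ̄) = D.C.u := by
  have hs := sign_spec h.prime h.liesOver h.dvd h.not_dvd D hσ
  refine ⟨fun e => by rw [hs, e, Int.cast_one, one_mul], fun e => ?_⟩
  rcases sign_eq W A σ with e' | e'
  · exact e'
  · rw [e', Int.cast_neg, Int.cast_one, neg_one_mul] at hs
    refine absurd (hs.symm.trans e) fun hc => D.C.u.ne_zero ?_
    linear_combination -hc / 2

/-- At an odd prime the sign of Frobenius is `1` exactly when `-c₆` is a square mod `q`. -/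
theorem frobenius_sign_iff (h : IsMultAt W A q) (hq2 : q ≠ 2) {σ : ℚ̄ ≃ₐ[ℚ] ℚ̄}
    (hσ : A.IsFrobeniusAt σ q) :
    sign W A σ = 1 ↔ IsSquare ((-W.c₆ : ℤ) : ZMod q) := by
  obtain ⟨D⟩ := exists_nodalData_at h.prime h.liesOver h.dvd h.not_dvd
  have ha := nodalData_va_lt h.liesOver h.dvd D
  have hu : A.valuation (D.C.u : ℚ̄) = 1 := D.hC.u
  rw [sign_eq_one_iff h D hσ.mem_decompositionSubgroup]
  set w := (D.C.u : ℚ̄) ^ 3 with hw
  have hw1 : A.valuation w = 1 := by rw [hw, map_pow, hu, one_pow]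
  have hc6 : (W.c₆ : ℚ̄) = -((D.C.u : ℚ̄) ^ 6 * (1 + 864 * D.a)) := by
    have e : (D.C • curveQbar W).c₆ = -(1 + 864 * D.a) := by
      rw [D.hCW]
      simp [WeierstrassCurve.c₆, WeierstrassCurve.b₂, WeierstrassCurve.b₄, WeierstrassCurve.b₆,
        nodal]
      ring
    have e' : (curveQbar W).c₆ = (W.c₆ : ℚ̄) := by simp [curveQbar, WeierstrassCurve.baseChange]
    rw [variableChange_c₆, Units.val_inv_eq_inv_val, inv_pow,
      inv_mul_eq_iff_eq_mul₀ (pow_ne_zero _ D.C.u.ne_zero), e'] at e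
    rw [e]; ring
  have hnd : ¬ (q : ℤ) ∣ -W.c₆ := by
    intro hd
    have h1 := vint_lt_one h.liesOver hd
    rw [Int.cast_neg, hc6, neg_neg, map_mul, map_pow, hu, one_pow, one_mul,
      A.valuation.map_add_eq_of_lt_left
        (by rw [map_one]; exact vmul_lt_right (vofNat_le _ 864) ha), map_one] at h1
    exact lt_irrefl _ h1
  obtain ⟨s, hs⟩ := IsAlgClosed.exists_pow_nat_eq ((-W.c₆ : ℤ) : ℚ̄) two_pos
  have hnear : A.valuation ((s - w) * (s + w)) < 1 := by
    rw [show (s - w) * (s + w) = (D.C.u : ℚ̄) ^ 6 * (864 * D.a) by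
      push_cast at hs; rw [hc6] at hs; rw [hw]; linear_combination hs]
    exact vmul_lt_right (vpow_le 6 hu.le) (vmul_lt_right (vofNat_le _ 864) ha)
  obtain ⟨s', hs', hclose⟩ : ∃ s', s' ^ 2 = ((-W.c₆ : ℤ) : ℚ̄) ∧ A.valuation (s' - w) < 1 := by
    by_contra hcon
    push Not at hcon
    have h1 := hcon s hs
    have h2 := hcon (-s) (by rw [neg_sq, hs])
    rw [← Valuation.map_neg, neg_sub, sub_neg_eq_add, add_comm] at h2
    rw [map_mul] at hnear
    exact absurd hnear (not_lt.2 (one_le_mul h1 h2))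
  rw [← frobenius_sqrt_iff h.prime h.liesOver hq2 hnd hs' hσ]
  have hs1 := valuation_sqrt_eq_one h.prime h.liesOver hnd hs'
  have hmove : A.valuation (σ (s' - w)) < 1 := by
    rwa [decomp_isometry hσ.mem_decompositionSubgroup]
  constructor
  · intro e
    refine (map_eq_or_eq_neg σ hs').resolve_right
      (not_eq_neg_of_near h.prime h.liesOver hq2 hs1 ?_)
    rw [show σ s' - s' = σ (s' - w) - (s' - w) by rw [map_sub, hw, map_pow, e]; ring]
    exact A.valuation.map_sub_lt hmove hclose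
  · intro e
    have hw' : σ w = w ∨ σ w = -w := by
      rcases decomp_u D (vc₄_eq h.prime h.liesOver h.not_dvd) ha
        hσ.mem_decompositionSubgroup with e' | e'
      · exact Or.inl (by rw [hw, map_pow, e'])
      · exact Or.inr (by rw [hw, map_pow, e']; ring)
    have hfix : σ w = w := hw'.resolve_right (not_eq_neg_of_near h.prime h.liesOver hq2 hw1 (by
      rw [show σ w - w = (s' - w) - σ (s' - w) by rw [map_sub, e]; ring]
      exact A.valuation.map_sub_lt hclose hmove))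
    rcases decomp_u D (vc₄_eq h.prime h.liesOver h.not_dvd) ha
      hσ.mem_decompositionSubgroup with e' | e'
    · exact e'
    · rw [hw, map_pow, e'] at hfix
      exact absurd (show (D.C.u : ℚ̄) ^ 3 = 0 by linear_combination -hfix / 2)
        (pow_ne_zero 3 D.C.u.ne_zero)

/-- At `2` the sign of Frobenius is `1` exactly when `a₂ + a₃` is even. -/
theorem frobenius_sign_two_iff (h : IsMultAt W A 2) {σ : ℚ̄ ≃ₐ[ℚ] ℚ̄}
    (hσ : A.IsFrobeniusAt σ 2) : sign W A σ = 1 ↔ Even (W.a₂ + W.a₃) := by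
  obtain ⟨D⟩ := exists_nodalData_at Nat.prime_two h.liesOver h.dvd h.not_dvd
  have hu : A.valuation (D.C.u : ℚ̄) = 1 := D.hC.u
  obtain ⟨-, -, ht, hus, -⟩ := nodal_r_facts D
  rw [sign_eq_one_iff h D hσ.mem_decompositionSubgroup]
  have h2 : A.valuation (2 : ℚ̄) < 1 := by exact_mod_cast vq_lt_one h.liesOver
  have ea : ∀ z : ℤ, σ (z : ℚ̄) = z := fun z => map_intCast σ z
  have ec1 : (curveQbar W).a₁ = (W.a₁ : ℚ̄) := by simp [curveQbar, WeierstrassCurve.baseChange]
  have ec2 : (curveQbar W).a₂ = (W.a₂ : ℚ̄) := by simp [curveQbar, WeierstrassCurve.baseChange]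
  have ec3 : (curveQbar W).a₃ = (W.a₃ : ℚ̄) := by simp [curveQbar, WeierstrassCurve.baseChange]
  rw [ec1] at hus
  rw [ec1, ec3] at ht
  have hquad : D.C.s ^ 2 + (W.a₁ : ℚ̄) * D.C.s - (W.a₂ : ℚ̄) - 3 * D.C.r = 0 := by
    have e : (D.C • curveQbar W).a₂ = 0 := by rw [D.hCW]; rfl
    rw [variableChange_a₂, Units.val_inv_eq_inv_val, mul_eq_zero,
      or_iff_right (pow_ne_zero _ (inv_ne_zero D.C.u.ne_zero)), ec1, ec2] at e
    linear_combination -e
  have hfr := frobenius_residue hσ D.hC.s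
  have hu' := decomp_u D (vc₄_eq Nat.prime_two h.liesOver h.not_dvd)
    (nodalData_va_lt h.liesOver h.dvd D) hσ.mem_decompositionSubgroup
  have ha1 : A.valuation ((W.a₁ : ℚ̄) - 1) < 1 := by
    have hodd : ¬ (2 : ℤ) ∣ W.a₁ := fun hd => by
      refine absurd hu (ne_of_lt ?_)
      rw [hus]
      exact A.valuation.map_add_lt (vint_lt_one h.liesOver (by exact_mod_cast hd))
        (vmul_lt_left h2 D.hC.s)
    rw [← Int.cast_one, ← Int.cast_sub]
    exact vint_lt_one h.liesOver (by push_cast; omega)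
  have hr : A.valuation ((W.a₃ : ℚ̄) + D.C.r) < 1 := by
    rw [show (W.a₃ : ℚ̄) + D.C.r = -(2 * D.C.t) - D.C.r * ((W.a₁ : ℚ̄) - 1) by
      linear_combination ht]
    exact A.valuation.map_sub_lt (by rw [Valuation.map_neg]; exact vmul_lt_left h2 D.hC.t)
      (vmul_lt_right D.hC.r ha1)
  have key : ∀ e : ℤ, A.valuation (σ D.C.s - D.C.s - (e : ℚ̄)) < 1 →
      A.valuation ((W.a₂ + W.a₃ - e : ℤ) : ℚ̄) < 1 := by
    intro e he
    rw [show ((W.a₂ + W.a₃ - e : ℤ) : ℚ̄) = (σ D.C.s - D.C.s - (e : ℚ̄)) -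
      (σ D.C.s - D.C.s ^ 2) + ((W.a₁ : ℚ̄) - 1) * D.C.s + 2 * D.C.s + ((W.a₃ : ℚ̄) + D.C.r) -
        2 * (2 * D.C.r) by push_cast; linear_combination -hquad]
    refine A.valuation.map_sub_lt (A.valuation.map_add_lt (A.valuation.map_add_lt
      (A.valuation.map_add_lt (A.valuation.map_sub_lt he hfr) (vmul_lt_left ha1 D.hC.s))
      (vmul_lt_left h2 D.hC.s)) hr) (vmul_lt_left h2 (vmul_le_left (vofNat_le _ 2) D.hC.r))
  have hs_eq : D.C.s = ((D.C.u : ℚ̄) - (W.a₁ : ℚ̄)) / 2 := by rw [hus]; ring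
  have small : ∀ z : ℤ, A.valuation (z : ℚ̄) < 1 → (2 : ℤ) ∣ z := fun z hz => by
    by_contra hc
    exact absurd (vint_eq_one Nat.prime_two h.liesOver (by exact_mod_cast hc)) hz.ne
  rcases hu' with e | e
  · refine iff_of_true e ?_
    have hd := small _ (key 0 (by
      rw [show σ D.C.s = D.C.s by rw [hs_eq, map_div₀, map_sub, map_ofNat, ea, e], sub_self,
        Int.cast_zero, sub_zero, map_zero]
      exact zero_lt_one))
    rw [even_iff_two_dvd]; omega
  · refine iff_of_false (fun e' => D.C.u.ne_zero ?_) ?_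
    · linear_combination (e.symm.trans e') / (-2)
    have hd := small _ (key 1 (by
      rw [show σ D.C.s = -D.C.s - (W.a₁ : ℚ̄) by
        rw [hs_eq, map_div₀, map_sub, map_ofNat, ea, e]; ring]
      rw [show -D.C.s - (W.a₁ : ℚ̄) - D.C.s - ((1 : ℤ) : ℚ̄) =
        -(2 * D.C.s) - ((W.a₁ : ℚ̄) - 1) - 2 by push_cast; ring]
      exact A.valuation.map_sub_lt (A.valuation.map_sub_lt
        (by rw [Valuation.map_neg]; exact vmul_lt_left h2 D.hC.s) ha1) h2))
    rw [even_iff_two_dvd]; omega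

end Fermat.Agent.EllLocal.Mult
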