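import Fermat.Agent.EllLocal.Mult.Structure

/-!
# Inertia at a prime of multiplicative reduction

Inertia moves points into the identity component and acts on the line of torsion points with
nonsingular reduction by the cyclotomic character.
-/

set_option autoImplicit false

namespace Fermat.Agent.EllLocal.Mult

open WeierstrassCurve Fermat.Agent.MultRed
open scoped WeierstrassCurve.Affine

local notation "ℚ̄" => AlgebraicClosure ℚ
set_option quotPrecheck false in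
local notation "E(" W ")" => ((WeierstrassCurve.map W (Int.castRingHom ℚ))⁄ℚ̄).Point

variable {W : WeierstrassCurve ℤ} {A : ValuationSubring ℚ̄} {q : ℕ}

lemma sign_inertia (h : IsMultAt W A q) {σ : ℚ̄ ≃ₐ[ℚ] ℚ̄} (hσ : σ ∈ A.inertiaSubgroupIn ℚ) :
    sign W A σ = 1 :=
  sign_of_inertia h.prime h.liesOver h.dvd h.not_dvd hσ

lemma sign_hom (h : IsMultAt W A q) {σ τ : ℚ̄ ≃ₐ[ℚ] ℚ̄} (hσ : σ ∈ A.decompositionSubgroup ℚ)
    (hτ : τ ∈ A.decompositionSubgroup ℚ) : sign W A (σ * τ) = sign W A σ * sign W A τ :=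
  sign_mul h.prime h.liesOver h.dvd h.not_dvd hσ hτ

/-- Inertia moves every point by a point with nonsingular reduction. -/
theorem inertia_sub_mem (h : IsMultAt W A q) {σ : ℚ̄ ≃ₐ[ℚ] ℚ̄} (hσ : σ ∈ A.inertiaSubgroupIn ℚ)
    (P : E(W)) : W.InZeroComponentAt A (σ • P - P) := by
  have := smul_sub_sign_smul_mem h (inertia_mem_decomposition hσ) P
  rwa [sign_inertia h hσ, one_zsmul] at this

/-- On the line inertia acts by the cyclotomic character. -/
theorem inertia_smul_of_mem_line (h : IsMultAt W A q) {ℓ : ℕ} (hℓ : ℓ.Prime) {k : ℕ}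
    {σ : ℚ̄ ≃ₐ[ℚ] ℚ̄} (hσ : σ ∈ A.inertiaSubgroupIn ℚ) {a : ℕ}
    (ha : ∀ μ : ℚ̄, μ ^ ℓ ^ k = 1 → σ μ = μ ^ a)
    {P : E(W)} (hP : W.InZeroComponentAt A P) (hkP : ℓ ^ k • P = 0) : σ • P = a • P := by
  rw [smul_eq_of_mem_line h hℓ (inertia_mem_decomposition hσ) ha hP hkP, sign_inertia h hσ,
    one_zsmul]

/-- Division by `ℓ` inside the line. -/
theorem exists_nsmul_eq_mem_line (h : IsMultAt W A q) {ℓ : ℕ} (hℓ : ℓ.Prime) {k : ℕ} {P : E(W)}
    (hP : W.InZeroComponentAt A P) (hkP : ℓ ^ k • P = 0) :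
    ∃ R : E(W), ℓ • R = P ∧ W.InZeroComponentAt A R ∧ ℓ ^ (k + 1) • R = 0 := by
  obtain ⟨P₁, -, hP₁, -, hord, hP₁0, hline, -, -⟩ := exists_adapted_generators h hℓ (k + 1)
  obtain ⟨i, rfl⟩ := hline P (by rw [pow_succ', mul_nsmul', hkP, nsmul_zero]) hP
  rw [← mul_nsmul', ← addOrderOf_dvd_iff_nsmul_eq_zero, hord, pow_succ] at hkP
  obtain ⟨j, rfl⟩ := Nat.dvd_of_mul_dvd_mul_left (pow_pos hℓ.pos k) hkP
  exact ⟨j • P₁, by rw [← mul_nsmul'], (e0Sub h).nsmul_mem hP₁0 j,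
    by rw [smul_comm, hP₁, nsmul_zero]⟩

end Fermat.Agent.EllLocal.Mult
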