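import Fermat.Agent.EllLocal.Mult.Inertia
import Mathlib.NumberTheory.LegendreSymbol.AddCharacter

/-!
# Torsion and Kummer theory at a prime of multiplicative reduction

If `ℓ` divides the valuation of the discriminant, the `ℓ`-torsion is generated over the roots of
unity by an `ℓ`-th root of a unit.
-/

set_option autoImplicit false

namespace Fermat.Agent.EllLocal.Mult

open WeierstrassCurve Fermat.Agent.MultRed
open scoped WeierstrassCurve.Affine

local notation "ℚ̄" => AlgebraicClosure ℚ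
set_option quotPrecheck false in
local notation "E(" W ")" => ((WeierstrassCurve.map W (Int.castRingHom ℚ))⁄ℚ̄).Point

section Chord

variable {L : Type*} [Field L] {Γ₀ : Type*} [LinearOrderedCommGroupWithZero Γ₀]
  {v : Valuation L Γ₀} {a : L}

/-- The abscissa of a point, `0` at infinity. -/
def xCoord : (nodal a).toAffine.Point → L
  | .zero => 0
  | .some x _ _ => x

variable [DecidableEq L]

/-- Adding a point with nonsingular reduction moves the abscissa of a point at the node by the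
value of the latter times the parameter of the former. -/
lemma vxCoord_add_sub {e : Γ₀} {R : (nodal a).toAffine.Point} (hR : IsLeft v a e R)
    {X Y : L} (hS : (nodal a).toAffine.Nonsingular X Y) (hX : 1 ≤ v X) (hXY : v X ≤ v Y) :
    v (xCoord (R + .some X Y hS) - xCoord R) = v Y * e / v X ^ 2 := by
  rcases R with _ | ⟨x, y, h⟩
  · exact hR.elim
  obtain ⟨hx, hw, hy, he1, hA⟩ := hR
  have hY1 : 1 ≤ v Y := hX.trans hXY
  have hY0 : (0 : Γ₀) < v Y := lt_of_lt_of_le zero_lt_one hY1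
  have he0 : (0 : Γ₀) < e := lt_of_le_of_lt zero_le hy
  have hne : x ≠ X := fun e' => absurd (hx ▸ he1) (not_lt.2 (e' ▸ hX))
  have hvd : v (X - x) = v X := v.map_sub_eq_of_lt_left (lt_of_lt_of_le (hx ▸ he1) hX)
  have hd0 : X - x ≠ 0 := sub_ne_zero.2 hne.symm
  rw [Affine.Point.add_of_X_ne hne]
  simp only [xCoord]
  rw [Affine.slope_of_X_ne hne, Affine.addX]
  simp only [nodal, one_mul, sub_zero]
  set main := Y * (2 * y + x) with hmain
  have hvm : v main = v Y * e := by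
    rw [hmain, map_mul, show 2 * y + x = (x + y) + y by ring,
      v.map_add_eq_of_lt_left (hw.symm ▸ hy), hw]
  have hbig : e ≤ v main := by rw [hvm]; exact le_mul_of_one_le_left he0.le hY1
  set rest := -x ^ 3 + 3 * x ^ 2 * X + 2 * a - y * X with hrest
  have hee : e ^ 2 < e := by
    rw [pow_two]; exact mul_lt_of_lt_one_right he0 he1
  have hr : v rest < v main := by
    refine v.map_sub_lt (v.map_add_lt (v.map_add_lt ?_ ?_) ?_) ?_
    · rw [Valuation.map_neg, map_pow, hx]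
      refine lt_of_lt_of_le (lt_of_le_of_lt ?_ hee) hbig
      exact pow_le_pow_of_le_one zero_le he1.le (by norm_num)
    · rw [hvm, map_mul, map_mul, map_pow, hx]
      calc v 3 * e ^ 2 * v X ≤ 1 * e ^ 2 * v Y :=
            mul_le_mul' (mul_le_mul' (vofNat_le v 3) le_rfl) hXY
        _ < v Y * e := by
            rw [one_mul, mul_comm]; exact mul_lt_mul_of_pos_left hee hY0
    · refine lt_of_lt_of_le (lt_trans (lt_of_le_of_lt ?_ hA) hee) hbig
      rw [map_mul]; exact mul_le_of_le_one_left zero_le (vofNat_le v 2)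
    · rw [hvm, map_mul]
      calc v y * v X ≤ v y * v Y := mul_le_mul' le_rfl hXY
        _ < v Y * e := by rw [mul_comm]; exact mul_lt_mul_of_pos_left hy hY0
  have hx' := (nodal_equation a).1 h.1
  have hS' := (nodal_equation a).1 hS.1
  have key : ((y - Y) / (x - X)) ^ 2 + (y - Y) / (x - X) - x - X - x =
      (rest - main) / (X - x) ^ 2 := by
    have hd0' : x - X ≠ 0 := sub_ne_zero.2 hne
    have e2 : (X - x) ^ 2 = (x - X) ^ 2 := by ring
    rw [e2, hrest, hmain, eq_div_iff (pow_ne_zero 2 hd0')]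
    field_simp
    linear_combination hx' + hS'
  rw [key, map_div₀, map_pow, hvd, v.map_sub_eq_of_lt_right hr, hvm]

omit [DecidableEq L] in
/-- A point off the node has a large abscissa, dominated by its ordinate. -/
lemma one_le_vX_of_inE0 (ha : v a < 1) {X Y : L} (hS : (nodal a).toAffine.Nonsingular X Y)
    (h0 : InE0 v (nodal a) (.some X Y hS)) : 1 ≤ v X ∧ v X ≤ v Y := by
  have hW := intCoeffs_nodal (v := v) ha
  have he := (nodal_equation a).1 hS.1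
  rcases lt_trichotomy (v X) 1 with hX | hX | hX
  · exfalso
    have hY := vy_le hW hS.1 hX.le
    rcases hY.lt_or_eq with hY | hY
    · exact (inE0_iff_not_inNode ha _).1 h0 ⟨hX, hY⟩
    · have h1 : v (Y * (Y + X)) = 1 := by
        rw [map_mul, v.map_add_eq_of_lt_left (hY.symm ▸ hX), hY, one_mul]
      rw [he] at h1
      refine absurd (v.map_add_lt ?_ ha) h1.not_lt
      rw [map_pow]; exact pow_lt_one₀ zero_le hX three_ne_zero
  · refine ⟨hX.ge, ?_⟩
    rw [hX]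
    by_contra hY
    push Not at hY
    have h1 : v (Y * (Y + X)) < 1 := by
      rw [map_mul, v.map_add_eq_of_lt_right (hX.symm ▸ hY), hX, mul_one]; exact hY
    rw [he, v.map_add_eq_of_lt_left (by rw [map_pow, hX, one_pow]; exact ha), map_pow, hX,
      one_pow] at h1
    exact lt_irrefl _ h1
  · refine ⟨hX.le, ?_⟩
    exact (vy_sq_eq hW hS.1 hX).2.le

end Chord

variable (A : ValuationSubring ℚ̄)

/-- The value of a nonzero number fixed by the inertia elements fixing `ζ`. -/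
def FixedValue (ζ : ℚ̄) (γ : A.ValueGroup) : Prop :=
  ∃ x : ℚ̄, x ≠ 0 ∧ A.valuation x = γ ∧
    ∀ σ ∈ A.inertiaSubgroupIn ℚ, σ ζ = ζ → σ x = x

variable {A} {ζ : ℚ̄}

lemma fixedValue_one : FixedValue A ζ 1 := ⟨1, one_ne_zero, map_one _, fun _ _ _ => map_one _⟩

lemma FixedValue.mul {γ δ : A.ValueGroup} (hγ : FixedValue A ζ γ) (hδ : FixedValue A ζ δ) :
    FixedValue A ζ (γ * δ) := by
  obtain ⟨x, hx, rfl, hxf⟩ := hγ
  obtain ⟨y, hy, rfl, hyf⟩ := hδ
  exact ⟨x * y, mul_ne_zero hx hy, map_mul _ _ _,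
    fun σ h1 h2 => by rw [map_mul, hxf σ h1 h2, hyf σ h1 h2]⟩

lemma FixedValue.inv {γ : A.ValueGroup} (hγ : FixedValue A ζ γ) : FixedValue A ζ γ⁻¹ := by
  obtain ⟨x, hx, rfl, hxf⟩ := hγ
  exact ⟨x⁻¹, inv_ne_zero hx, map_inv₀ _ _, fun σ h1 h2 => by rw [map_inv₀, hxf σ h1 h2]⟩

lemma FixedValue.pow {γ : A.ValueGroup} (hγ : FixedValue A ζ γ) (n : ℕ) :
    FixedValue A ζ (γ ^ n) := by
  induction n with
  | zero => rw [pow_zero]; exact fixedValue_one
  | succ n ih => rw [pow_succ]; exact ih.mul hγ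

lemma FixedValue.div {γ δ : A.ValueGroup} (hγ : FixedValue A ζ γ) (hδ : FixedValue A ζ δ) :
    FixedValue A ζ (γ / δ) := by
  rw [div_eq_mul_inv]; exact hγ.mul hδ.inv

lemma fixedValue_root {γ : A.ValueGroup} (hγ0 : γ ≠ 0) {ℓ k : ℕ} [Fact ℓ.Prime]
    (hk : (k : ZMod ℓ) ≠ 0) (hkγ : FixedValue A ζ (γ ^ k)) (hℓ : FixedValue A ζ (γ ^ ℓ)) :
    FixedValue A ζ γ := by
  set d := ((k : ZMod ℓ)⁻¹).val with hd
  have h1 : ((k * d : ℕ) : ZMod ℓ) = ((1 : ℕ) : ZMod ℓ) := by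
    rw [Nat.cast_mul, hd, ZMod.natCast_zmod_val, mul_inv_cancel₀ hk, Nat.cast_one]
  rw [ZMod.natCast_eq_natCast_iff] at h1
  have hmod : k * d % ℓ = 1 := by
    rw [h1, Nat.one_mod_eq_one]; exact (Fact.out : ℓ.Prime).one_lt.ne'
  have e : γ = (γ ^ k) ^ d / (γ ^ ℓ) ^ (k * d / ℓ) := by
    rw [eq_div_iff (pow_ne_zero _ (pow_ne_zero _ hγ0)), ← pow_mul, ← pow_mul, ← pow_succ']
    congr 1
    have := Nat.div_add_mod (k * d) ℓ
    omega
  rw [e]
  exact (hkγ.pow d).div (hℓ.pow _)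

/-- A value fixed by the inertia elements fixing `ζ` has a power, of exponent less than `ℓ`, fixed
by all of inertia. -/
lemma FixedValue.exists_pow_fixed {ℓ : ℕ} (hℓ : ℓ.Prime) (hζ : IsPrimitiveRoot ζ ℓ)
    {γ : A.ValueGroup} (hγ : FixedValue A ζ γ) :
    ∃ n, 0 < n ∧ n < ℓ ∧ FixedValue A 1 (γ ^ n) := by
  classical
  have : NeZero ℓ := ⟨hℓ.ne_zero⟩
  obtain ⟨x, hx0, rfl, hxf⟩ := hγ
  have hroot : ∀ σ ∈ A.inertiaSubgroupIn ℚ, ∃ i ∈ Finset.Ioo 0 ℓ, σ ζ = ζ ^ i := by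
    intro σ _
    obtain ⟨i, hi, hi'⟩ := hζ.eq_pow_of_pow_eq_one (show σ ζ ^ ℓ = 1 by
      rw [← map_pow, hζ.pow_eq_one, map_one])
    refine ⟨i, Finset.mem_Ioo.2 ⟨Nat.pos_of_ne_zero fun e => hζ.ne_one hℓ.one_lt ?_, hi⟩, hi'.symm⟩
    rw [e, pow_zero] at hi'
    exact σ.injective (by rw [← hi', map_one])
  let f : ℕ → ℚ̄ := fun i =>
    if hex : ∃ σ ∈ A.inertiaSubgroupIn ℚ, σ ζ = ζ ^ i then hex.choose x else x
  set S := ((Finset.Ioo 0 ℓ).image f).filter fun y => ∃ σ ∈ A.inertiaSubgroupIn ℚ, σ x = y with hS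
  have hmem : ∀ σ ∈ A.inertiaSubgroupIn ℚ, σ x ∈ S := by
    intro σ hσ
    obtain ⟨i, hi, hi'⟩ := hroot σ hσ
    refine Finset.mem_filter.2 ⟨Finset.mem_image.2 ⟨i, hi, ?_⟩, σ, hσ, rfl⟩
    have hex : ∃ τ ∈ A.inertiaSubgroupIn ℚ, τ ζ = ζ ^ i := ⟨σ, hσ, hi'⟩
    simp only [f, dif_pos hex]
    obtain ⟨hτ, hτζ⟩ := hex.choose_spec
    generalize hex.choose = τ at hτ hτζ ⊢
    have hfix := hxf (τ⁻¹ * σ) (mul_mem (inv_mem hτ) hσ) (by
      rw [AlgEquiv.mul_apply, hi', ← hτζ]; exact AlgEquiv.symm_apply_apply _ _)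
    rw [AlgEquiv.mul_apply] at hfix
    exact ((AlgEquiv.symm_apply_eq _).1 hfix).symm
  have hv : ∀ y ∈ S, A.valuation y = A.valuation x := by
    intro y hy
    obtain ⟨σ, hσ, rfl⟩ := (Finset.mem_filter.1 hy).2
    exact decomp_isometry (inertia_mem_decomposition hσ) x
  refine ⟨S.card, Finset.card_pos.2 ⟨_, hmem 1 (one_mem _)⟩, ?_, ∏ y ∈ S, y, ?_, ?_, ?_⟩
  · refine lt_of_le_of_lt ((Finset.card_filter_le _ _).trans Finset.card_image_le) ?_
    rw [Nat.card_Ioo]; have := hℓ.pos; omega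
  · refine Finset.prod_ne_zero_iff.2 fun y hy e => hx0 ?_
    have := hv y hy
    rw [e, map_zero] at this
    exact A.valuation.zero_iff.1 this.symm
  · rw [map_prod, Finset.prod_congr rfl hv, Finset.prod_const]
  · intro τ hτ _
    rw [map_prod]
    have himg : S.image τ = S := by
      refine Finset.eq_of_subset_of_card_le (fun y hy => ?_) ?_
      · obtain ⟨z, hz, rfl⟩ := Finset.mem_image.1 hy
        obtain ⟨σ, hσ, rfl⟩ := (Finset.mem_filter.1 hz).2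
        exact hmem (τ * σ) (mul_mem hτ hσ)
      · rw [Finset.card_image_of_injective _ τ.injective]
    conv_rhs => rw [← himg, Finset.prod_image fun y _ z _ h => τ.injective h]

variable {W : WeierstrassCurve ℤ} {q : ℕ}

/-- If `ℓ` divides the valuation of the discriminant, inertia acts on the `ℓ`-torsion through the
roots of unity and an `ℓ`-th root of a unit fixed by inertia. -/
theorem exists_inertia_kummer (h : IsMultAt W A q) {ℓ : ℕ} (hℓ : ℓ.Prime) (hℓ2 : ℓ ≠ 2)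
    (hdvd : ℓ ∣ padicValInt q W.Δ) (hζ : IsPrimitiveRoot ζ ℓ) :
    ∃ (P₁ P₂ : E(W)) (z : ℚ̄), ℓ • P₁ = 0 ∧ ℓ • P₂ = 0 ∧ P₁ ≠ 0 ∧
      W.InZeroComponentAt A P₁ ∧ ¬ W.InZeroComponentAt A P₂ ∧
      (∀ P : E(W), ℓ • P = 0 → ∃ i j : ℕ, P = i • P₁ + j • P₂) ∧
      A.valuation z = 1 ∧
      (∀ σ ∈ A.inertiaSubgroupIn ℚ, σ (z ^ ℓ) = z ^ ℓ) ∧
      ∀ σ ∈ A.inertiaSubgroupIn ℚ, ∃ a c : ℕ,
        σ ζ = ζ ^ a ∧ σ • P₁ = a • P₁ ∧ σ • P₂ = P₂ + c • P₁ ∧ σ z = ζ ^ c * z := by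
  classical
  have := Fact.mk hℓ
  obtain ⟨P₁, P₂', hP₁, hP₂', hord, hP₁0, hline, hgen', hdiv⟩ :=
    exists_adapted_generators h hℓ 1
  rw [pow_one] at hP₁ hP₂' hord hline hgen' hdiv
  have hP₁ne : P₁ ≠ 0 := fun e => by rw [e, addOrderOf_zero] at hord; exact hℓ.ne_one hord.symm
  have hP₂0' : ¬ W.InZeroComponentAt A P₂' := fun hc =>
    hℓ.not_dvd_one (hdiv 1 (by rwa [one_nsmul]))
  obtain ⟨D⟩ := exists_nodalData_at h.prime h.liesOver h.dvd h.not_dvd
  have ha0 := nodalData_a_ne h.ne_zero D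
  have ha := nodalData_va_lt h.liesOver h.dvd D
  have hva : A.valuation D.a = A.valuation (q : ℚ̄) ^ padicValInt q W.Δ := by
    rw [nodalData_va D, vint_eq_pow h.prime h.liesOver h.ne_zero]
  obtain ⟨R₀, hR₀⟩ := (nodeMap_bijective D).2 P₂'
  obtain ⟨S, rfl⟩ := (nodeMap_bijective D).2 P₁
  have hNode : InNode A.valuation D.a R₀ := by
    by_contra hc
    exact hP₂0' (hR₀ ▸ (nodeMap_inE0_iff D R₀).2 ((inE0_iff_not_inNode ha R₀).2 hc))
  -- choose the sign so that the point is on the left branch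
  obtain ⟨R, e, hR, hRsign⟩ : ∃ R e, IsLeft A.valuation D.a e R ∧ (R = R₀ ∨ R = -R₀) := by
    rcases node_cases ha0 hNode with ⟨e, he⟩ | ⟨e, he⟩ | hm
    · exact ⟨R₀, e, he, Or.inl rfl⟩
    · exact ⟨-R₀, e, he, Or.inr rfl⟩
    · exfalso
      obtain ⟨j, -, hj, hj0⟩ := exists_exponent h D hℓ.ne_zero (Q := R₀) (by rw [hR₀]; exact hP₂')
      have h2 := (phi_mid ha0 ha hm).2
      have hA0 : 0 < A.valuation D.a :=
        lt_of_le_of_ne zero_le (A.valuation.ne_zero_iff.2 ha0).symm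
      have e1 : A.valuation D.a ^ ℓ = A.valuation D.a ^ (2 * j) := by
        conv_lhs => rw [← h2, ← pow_mul, mul_comm 2 ℓ, pow_mul, hj, ← pow_mul, mul_comm j 2]
      have := (pow_right_strictAnti₀ hA0 ha).injective e1
      exact hℓ2 ((Nat.prime_dvd_prime_iff_eq Nat.prime_two hℓ).1 ⟨j, this⟩).symm
  set P₂ := nodeMap D R with hP₂def
  have hP₂ : ℓ • P₂ = 0 := by
    rcases hRsign with rfl | rfl
    · rw [hP₂def, hR₀, hP₂']
    · rw [hP₂def, map_neg, hR₀, neg_nsmul, hP₂', neg_zero]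
  have hgen : ∀ P : E(W), ℓ • P = 0 → ∃ i j : ℕ, P = i • nodeMap D S + j • P₂ := by
    intro P hP
    obtain ⟨i, j, rfl⟩ := hgen' P hP
    rcases hRsign with rfl | rfl
    · exact ⟨i, j, by rw [hP₂def, hR₀]⟩
    · refine ⟨i, j * (ℓ - 1), ?_⟩
      have hpred : (ℓ - 1) • P₂' = -P₂' := by
        rw [eq_neg_iff_add_eq_zero, ← succ_nsmul, Nat.sub_add_cancel hℓ.pos, hP₂']
      rw [hP₂def, map_neg, hR₀, mul_nsmul', neg_nsmul, hpred, neg_neg]
  obtain ⟨hRnode, hphi⟩ := phi_left hR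
  have hP₂0 : ¬ W.InZeroComponentAt A P₂ := fun hc =>
    (inE0_iff_not_inNode ha R).1 ((nodeMap_inE0_iff D R).1 hc) hRnode
  have he0 : e ≠ 0 := by
    rcases R with _ | ⟨x, y, hxy⟩
    · exact hR.elim
    · exact (lt_of_le_of_lt zero_le hR.2.2.1).ne'
  have hqfix : FixedValue A ζ (A.valuation (q : ℚ̄)) :=
    ⟨q, Nat.cast_ne_zero.2 h.prime.ne_zero, rfl, fun σ _ _ => map_natCast σ q⟩
  -- the value of the chosen point
  have hefix : FixedValue A ζ e := by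
    obtain ⟨j, -, hj, -⟩ := exists_exponent h D hℓ.ne_zero (Q := R) hP₂
    obtain ⟨m, hm⟩ := hdvd
    rw [hphi, hva, ← pow_mul, hm, mul_assoc, mul_comm ℓ, pow_mul] at hj
    rw [(pow_left_inj₀ zero_le zero_le hℓ.ne_zero).1 hj]
    exact hqfix.pow _
  obtain ⟨X, Y, hS, rfl⟩ : ∃ X Y hS, S = .some X Y hS := by
    rcases S with _ | ⟨X, Y, hS⟩
    · exact absurd (map_zero (nodeMap D)) hP₁ne
    · exact ⟨X, Y, hS, rfl⟩
  obtain ⟨hX, hXY⟩ := one_le_vX_of_inE0 ha hS ((nodeMap_inE0_iff D _).1 hP₁0)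
  set S : (nodal D.a).toAffine.Point := .some X Y hS with hSdef
  have hℓS : ℓ • S = 0 := (nodeMap_bijective D).1 (by rw [map_nsmul, hP₁, map_zero])
  let w : ZMod ℓ → ℚ̄ := fun i => xCoord (R + i.val • S)
  -- the action
  have hact : ∀ σ ∈ A.inertiaSubgroupIn ℚ, ∃ a c : ℕ, σ ζ = ζ ^ a ∧ (a : ZMod ℓ) ≠ 0 ∧
      σ • nodeMap D S = a • nodeMap D S ∧ σ • P₂ = P₂ + c • nodeMap D S ∧
      (σ ζ = ζ → σ X = X ∧ σ Y = Y) ∧ ∀ i : ZMod ℓ, σ (w i) = w (a * i + c) := by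
    intro σ hσ
    obtain ⟨τ, hτ, hτs, -⟩ := exists_endo D hσ
    obtain ⟨a, ha', haζ⟩ := hζ.eq_pow_of_pow_eq_one (show σ ζ ^ ℓ = 1 by
      rw [← map_pow, hζ.pow_eq_one, map_one])
    have hane : (a : ZMod ℓ) ≠ 0 := by
      rw [Ne, ZMod.natCast_eq_zero_iff]
      intro hd
      refine hζ.ne_one hℓ.one_lt (σ.injective ?_)
      rw [← haζ, hζ.pow_eq_one_iff_dvd a |>.2 hd, map_one]
    have h1 : σ • nodeMap D S = a • nodeMap D S :=
      inertia_smul_of_mem_line h hℓ hσ (k := 1) (fun μ hμ => by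
        rw [pow_one] at hμ
        obtain ⟨i, -, rfl⟩ := hζ.eq_pow_of_pow_eq_one hμ
        rw [map_pow, ← haζ, ← pow_mul, ← pow_mul, mul_comm]) hP₁0 (by rw [pow_one]; exact hP₁)
    obtain ⟨c, hc⟩ := hline (σ • P₂ - P₂) (by rw [smul_sub_nsmul hP₂]) (inertia_sub_mem h hσ P₂)
    rw [sub_eq_iff_eq_add'] at hc
    have hτS : τ S = a • S := (nodeMap_bijective D).1 (by rw [hτ, h1, map_nsmul])
    have hτR : τ R = R + c • S :=
      (nodeMap_bijective D).1 (by rw [hτ, map_add, map_nsmul, ← hP₂def, hc])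
    refine ⟨a, c, haζ.symm, hane, h1, hc, fun hfix => ?_, fun i => ?_⟩
    · obtain ⟨h', he'⟩ := hτs X Y hS
      have ha1 : a = 1 := hζ.pow_inj ha' hℓ.one_lt (by rw [haζ, hfix, pow_one])
      rw [← hSdef, hτS, ha1, one_nsmul, hSdef, Affine.Point.some.injEq] at he'
      exact ⟨he'.1.symm, he'.2.symm⟩
    have hτ' : τ (R + i.val • S) = R + ((a : ZMod ℓ) * i + c).val • S := by
      rw [map_add, map_nsmul, hτS, hτR, add_assoc, ← mul_nsmul', ← add_nsmul,
        nsmul_eq_mod_nsmul (c + i.val * a) hℓS]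
      congr 2
      rw [← ZMod.val_natCast, Nat.cast_add, Nat.cast_mul, ZMod.natCast_zmod_val]
      congr 1
      ring
    show σ (xCoord (R + i.val • S)) = xCoord (R + ((a : ZMod ℓ) * i + c).val • S)
    rw [← hτ']
    generalize R + i.val • S = Q
    rcases Q with _ | ⟨x, y, hQ⟩
    · rw [← Affine.Point.zero_def, map_zero]; exact map_zero σ
    · obtain ⟨h'', he''⟩ := hτs x y hQ
      rw [he'']; rfl
  have hX0 : X ≠ 0 := fun e => by
    rw [e, map_zero] at hX; exact absurd hX (not_le.2 zero_lt_one)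
  have hY0 : Y ≠ 0 := fun e => by
    rw [e, map_zero] at hXY; exact absurd (hX.trans hXY) (not_le.2 zero_lt_one)
  have hfX : FixedValue A ζ (A.valuation X) :=
    ⟨X, hX0, rfl, fun σ h1 h2 => by obtain ⟨-, -, -, -, -, -, hf, -⟩ := hact σ h1; exact (hf h2).1⟩
  have hfY : FixedValue A ζ (A.valuation Y) :=
    ⟨Y, hY0, rfl, fun σ h1 h2 => by obtain ⟨-, -, -, -, -, -, hf, -⟩ := hact σ h1; exact (hf h2).2⟩
  have hζ1 : ζ ^ ℓ = 1 := hζ.pow_eq_one
  let ψ : AddChar (ZMod ℓ) ℚ̄ := AddChar.zmodChar ℓ hζ1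
  have hψ : ψ.IsPrimitive := AddChar.zmodChar_primitive_of_primitive_root ℓ hζ
  have hψfix : ∀ (σ : ℚ̄ ≃ₐ[ℚ] ℚ̄), σ ζ = ζ → ∀ i, σ (ψ i) = ψ i := fun σ hσ i => by
    show σ (ζ ^ i.val) = ζ ^ i.val
    rw [map_pow, hσ]
  -- the resolvents
  let r : ZMod ℓ → ℚ̄ := fun k => ∑ i, ψ (k * i) * w i
  have hrσ : ∀ (σ : ℚ̄ ≃ₐ[ℚ] ℚ̄) (a c : ℕ), σ ζ = ζ ^ a → (a : ZMod ℓ) ≠ 0 →
      (∀ i, σ (w i) = w (a * i + c)) → ∀ k, σ (r k) = ψ (-(k * c)) * r k := by
    intro σ a c hσ ha0' hw k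
    have hψσ : ∀ i, σ (ψ i) = ψ (a * i) := fun i => by
      rw [← nsmul_eq_mul, AddChar.map_nsmul_eq_pow]
      show σ (ζ ^ i.val) = (ζ ^ i.val) ^ a
      rw [map_pow, hσ, ← pow_mul, ← pow_mul, mul_comm]
    simp only [r, map_sum, map_mul, hψσ, hw, Finset.mul_sum]
    refine Fintype.sum_equiv ((Equiv.mulLeft₀ (a : ZMod ℓ) ha0').trans
      (Equiv.addRight (c : ZMod ℓ))) _ _ fun i => ?_
    simp only [Equiv.trans_apply, Equiv.mulLeft₀_apply, Equiv.coe_addRight]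
    rw [← mul_assoc (ψ _), ← AddChar.map_add_eq_mul]
    congr 2
    ring
  have hsum : ∑ k, (ψ (-k) - 1) * r k = (ℓ : ℚ̄) * (w 1 - w 0) := by
    have horth : ∀ b : ZMod ℓ, ∑ k, ψ (k * b) = if b = 0 then (ℓ : ℚ̄) else 0 := fun b => by
      have := AddChar.sum_mulShift b hψ
      rw [ZMod.card] at this
      rw [this, Nat.cast_ite, Nat.cast_zero]
    calc ∑ k, (ψ (-k) - 1) * r k
        = ∑ k, ∑ i, (ψ (k * (i - 1)) * w i - ψ (k * i) * w i) := by
          refine Finset.sum_congr rfl fun k _ => ?_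
          simp only [r, Finset.mul_sum]
          refine Finset.sum_congr rfl fun i _ => ?_
          rw [show k * (i - 1) = -k + k * i by ring, AddChar.map_add_eq_mul]
          ring
      _ = ∑ i, ((∑ k, ψ (k * (i - 1))) * w i - (∑ k, ψ (k * i)) * w i) := by
          rw [Finset.sum_comm]
          simp only [Finset.sum_sub_distrib, ← Finset.sum_mul]
      _ = (ℓ : ℚ̄) * (w 1 - w 0) := by
          simp only [horth, sub_eq_zero, ite_mul, zero_mul, Finset.sum_sub_distrib,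
            Finset.sum_ite_eq', Finset.mem_univ, if_true]
          ring
  have hdiff : A.valuation (w 1 - w 0) = A.valuation Y * e / A.valuation X ^ 2 := by
    simp only [w, ZMod.val_one, ZMod.val_zero, one_nsmul, zero_nsmul, add_zero]
    exact vxCoord_add_sub hR hS hX hXY
  have hℓ0 : (ℓ : ℚ̄) ≠ 0 := Nat.cast_ne_zero.2 hℓ.ne_zero
  have hsumval : FixedValue A ζ (A.valuation ((ℓ : ℚ̄) * (w 1 - w 0))) := by
    rw [map_mul, hdiff]
    exact FixedValue.mul ⟨ℓ, hℓ0, rfl, fun σ _ _ => map_natCast σ ℓ⟩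
      ((hfY.mul hefix).div (hfX.pow 2))
  have hsum0 : (ℓ : ℚ̄) * (w 1 - w 0) ≠ 0 := by
    obtain ⟨x, hx0, hx, -⟩ := hsumval
    exact A.valuation.ne_zero_iff.1 (hx ▸ A.valuation.ne_zero_iff.2 hx0)
  obtain ⟨k₀, hk₀, hr₀⟩ : ∃ k : ZMod ℓ, k ≠ 0 ∧ r k ≠ 0 := by
    by_contra hcon
    push Not at hcon
    refine hsum0 (hsum ▸ Finset.sum_eq_zero fun k _ => ?_)
    rcases eq_or_ne k 0 with rfl | hk
    · rw [neg_zero, AddChar.map_zero_eq_one, sub_self, zero_mul]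
    · rw [hcon k hk, mul_zero]
  set z := r k₀ ^ (-k₀⁻¹).val with hz
  have hz0 : z ≠ 0 := pow_ne_zero _ hr₀
  have hzσ : ∀ (σ : ℚ̄ ≃ₐ[ℚ] ℚ̄) (a c : ℕ), σ ζ = ζ ^ a → (a : ZMod ℓ) ≠ 0 →
      (∀ i, σ (w i) = w (a * i + c)) → σ z = ψ c * z := by
    intro σ a c hσ ha0' hw
    rw [hz, map_pow, hrσ σ a c hσ ha0' hw, mul_pow, ← AddChar.map_nsmul_eq_pow, nsmul_eq_mul,
      ZMod.natCast_zmod_val]
    congr 2
    field_simp
  have hzℓ : ∀ σ ∈ A.inertiaSubgroupIn ℚ, σ (z ^ ℓ) = z ^ ℓ := by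
    intro σ hσ
    obtain ⟨a, c, haζ, hane, -, -, -, hw⟩ := hact σ hσ
    rw [map_pow, hzσ σ a c haζ hane hw, mul_pow, ← AddChar.map_nsmul_eq_pow, nsmul_eq_mul,
      ZMod.natCast_self, zero_mul, AddChar.map_zero_eq_one, one_mul]
  have hzℓI : FixedValue A 1 (A.valuation z ^ ℓ) :=
    ⟨z ^ ℓ, pow_ne_zero _ hz0, map_pow _ _ _, fun σ hσ _ => hzℓ σ hσ⟩
  have hzℓv : FixedValue A ζ (A.valuation z ^ ℓ) :=
    ⟨z ^ ℓ, pow_ne_zero _ hz0, map_pow _ _ _, fun σ hσ _ => hzℓ σ hσ⟩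
  -- the value of the resolvent
  have hzv : FixedValue A ζ (A.valuation z) := by
    by_contra hbad
    set T : ZMod ℓ → ℚ̄ := fun k => (ψ (-k) - 1) * r k with hT
    have hψ1 : ∀ k : ZMod ℓ, k ≠ 0 → ψ (-k) - 1 ≠ 0 := fun k hk e => by
      rw [sub_eq_zero] at e
      have h1 : ζ ^ (-k).val = 1 := e
      rw [hζ.pow_eq_one_iff_dvd] at h1
      exact neg_ne_zero.2 hk ((ZMod.val_eq_zero _).1 (Nat.eq_zero_of_dvd_of_lt h1 (ZMod.val_lt _)))
    have hterm : ∀ k, T k ≠ 0 → FixedValue A ζ (A.valuation (T k) * A.valuation z ^ k.val) := by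
      intro k hk
      refine ⟨T k * z ^ k.val, mul_ne_zero hk (pow_ne_zero _ hz0), by rw [map_mul, map_pow],
        fun σ hσ hσζ => ?_⟩
      obtain ⟨a, c, haζ, hane, -, -, -, hw⟩ := hact σ hσ
      simp only [hT, map_mul, map_sub, map_one, hψfix σ hσζ, map_pow, hrσ σ a c haζ hane hw,
        hzσ σ a c haζ hane hw]
      rw [mul_pow, ← AddChar.map_nsmul_eq_pow, nsmul_eq_mul, ZMod.natCast_zmod_val]
      have e1 : ψ (-(k * c)) * ψ (k * c) = 1 := by
        rw [← AddChar.map_add_eq_mul, neg_add_cancel, AddChar.map_zero_eq_one]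
      linear_combination (ψ (-k) - 1) * r k * z ^ k.val * e1
    have hdistinct : ∀ k l, T k ≠ 0 → T l ≠ 0 → A.valuation (T k) = A.valuation (T l) → k = l := by
      intro k l hk hl hkl
      by_contra hne
      wlog hlt : k.val < l.val generalizing k l
      · refine this l k hl hk hkl.symm (Ne.symm hne) ?_
        exact lt_of_le_of_ne (not_lt.1 hlt) fun e => hne (ZMod.val_injective ℓ e).symm
      refine hbad (fixedValue_root (A.valuation.ne_zero_iff.2 hz0) (k := l.val - k.val) ?_ ?_ hzℓv)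
      · rw [Ne, ZMod.natCast_eq_zero_iff]
        refine Nat.not_dvd_of_pos_of_lt (by omega) ?_
        have := ZMod.val_lt l
        omega
      · have := (hterm l hl).div (hterm k hk)
        rw [hkl, mul_div_mul_left _ _ (A.valuation.ne_zero_iff.2 hl)] at this
        rwa [pow_sub₀ _ (A.valuation.ne_zero_iff.2 hz0) hlt.le, ← div_eq_mul_inv]
    obtain ⟨j, -, hj⟩ := Finset.exists_max_image Finset.univ (fun k => A.valuation (T k))
      ⟨k₀, Finset.mem_univ _⟩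
    have hTk₀ : T k₀ ≠ 0 := mul_ne_zero (hψ1 k₀ hk₀) hr₀
    have hTj : T j ≠ 0 := fun e => hTk₀ (A.valuation.zero_iff.1 (le_antisymm (by
      simpa [e] using hj k₀ (Finset.mem_univ _)) zero_le))
    have hvsum : A.valuation (∑ k, T k) = A.valuation (T j) := by
      refine A.valuation.map_sum_eq_of_lt (Finset.mem_univ j) fun i hi => ?_
      simp only [Finset.mem_sdiff, Finset.mem_singleton, Finset.mem_univ, true_and] at hi
      refine lt_of_le_of_ne (hj i (Finset.mem_univ _)) fun e => hi ?_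
      exact hdistinct i j (A.valuation.ne_zero_iff.1 (e ▸ A.valuation.ne_zero_iff.2 hTj)) hTj e
    have hj0 : j ≠ 0 := fun e => hTj (by
      rw [hT, e]; simp only [neg_zero, AddChar.map_zero_eq_one, sub_self, zero_mul])
    refine hbad (fixedValue_root (A.valuation.ne_zero_iff.2 hz0) (k := j.val)
      (by rw [ZMod.natCast_zmod_val]; exact hj0) ?_ hzℓv)
    have h2 := hterm j hTj
    rw [← hvsum, show ∑ k, T k = (ℓ : ℚ̄) * (w 1 - w 0) from hsum] at h2
    have h3 := h2.div hsumval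
    rwa [mul_div_cancel_left₀ _ (A.valuation.ne_zero_iff.2 hsum0)] at h3
  obtain ⟨n, hn0, hnℓ, hn⟩ := hzv.exists_pow_fixed hℓ hζ
  obtain ⟨x₀, hx₀, hx₀v, hx₀f⟩ : FixedValue A 1 (A.valuation z) :=
    fixedValue_root (A.valuation.ne_zero_iff.2 hz0) (k := n) (by
      rw [Ne, ZMod.natCast_eq_zero_iff]; exact Nat.not_dvd_of_pos_of_lt hn0 hnℓ) hn hzℓI
  refine ⟨nodeMap D S, P₂, z / x₀, hP₁, hP₂, hP₁ne, hP₁0, hP₂0, hgen, ?_, ?_, ?_⟩
  · rw [map_div₀, hx₀v, div_self (A.valuation.ne_zero_iff.2 hz0)]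
  · intro σ hσ
    rw [div_pow, map_div₀, hzℓ σ hσ, map_pow, hx₀f σ hσ (map_one σ)]
  · intro σ hσ
    obtain ⟨a, c, haζ, hane, h1, h2, -, hw⟩ := hact σ hσ
    refine ⟨a, c, haζ, h1, h2, ?_⟩
    rw [map_div₀, hzσ σ a c haζ hane hw, hx₀f σ hσ (map_one σ), mul_div_assoc]
    congr 1
    show ζ ^ (c : ZMod ℓ).val = ζ ^ c
    rw [ZMod.val_natCast, ← pow_eq_pow_mod _ hζ1]

end Fermat.Agent.EllLocal.Mult
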