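import Fermat.Agent.MultRed.NodalModel
import Fermat.Agent.EllTorsion.Count
import Mathlib.RingTheory.Valuation.ValuationSubring
import Mathlib.RingTheory.LocalRing.ResidueField.Basic

/-!
# Torsion points reducing to the node

For every prime `ℓ` some `ℓ`-torsion point of `y² + xy = x³ + a` reduces to the node.
-/

set_option autoImplicit false

namespace Fermat.Agent.EllLocal.Mult

open WeierstrassCurve Polynomial Fermat.Agent.MultRed

section Gauss

variable {L : Type*} [Field L] {Γ₀ : Type*} [LinearOrderedCommGroupWithZero Γ₀]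
  (v : Valuation L Γ₀)

/-- The constant coefficient dominates the others. -/
def ConstDominates (f : L[X]) : Prop := ∀ i, v (f.coeff i) ≤ v (f.coeff 0)

lemma constDominates_mul {f g : L[X]} (hf : ConstDominates v f) (hg : ConstDominates v g) :
    ConstDominates v (f * g) := by
  intro i
  rw [coeff_mul, mul_coeff_zero, map_mul]
  exact v.map_sum_le fun x _ => by rw [map_mul]; exact mul_le_mul' (hf _) (hg _)

lemma constDominates_X_sub_C {r : L} (hr : 1 ≤ v r) : ConstDominates v (X - C r) := by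
  intro i
  rcases i with _ | _ | i
  · rfl
  · simpa using hr
  · simp [coeff_X, coeff_C]

/-- A split polynomial with unit coefficient and small constant term has a small root. -/
lemma exists_root_lt_one [IsAlgClosed L] {f : L[X]} {i : ℕ} (hi : v (f.coeff i) = 1)
    (h0 : v (f.coeff 0) < 1) : ∃ r, f.IsRoot r ∧ v r < 1 := by
  by_contra hc
  push Not at hc
  have hf0 : f ≠ 0 := fun h => by rw [h, coeff_zero, map_zero] at hi; exact zero_ne_one hi
  have key : ∀ s : Multiset L, (∀ r ∈ s, 1 ≤ v r) →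
      ConstDominates v (s.map fun r => X - C r).prod := by
    intro s
    induction s using Multiset.induction with
    | empty =>
      intro _ j
      rcases j with _ | j <;> simp [coeff_one]
    | cons a s ih =>
      intro h
      rw [Multiset.map_cons, Multiset.prod_cons]
      exact constDominates_mul v (constDominates_X_sub_C v (h a (Multiset.mem_cons_self a s)))
        (ih fun r hr => h r (Multiset.mem_cons_of_mem hr))
  have hsplit := IsAlgClosed.splits f
  have hdom : ConstDominates v f := by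
    rw [hsplit.eq_prod_roots]
    refine constDominates_mul v (fun j => ?_) (key _ fun r hr => hc r (isRoot_of_mem_roots hr))
    rcases j with _ | j <;> simp [coeff_C]
  have := hdom i
  rw [hi] at this
  exact absurd h0 (not_lt.2 this)

end Gauss

section Node

variable {L : Type*} [Field L] {Γ₀ : Type*} [LinearOrderedCommGroupWithZero Γ₀]
  {v : Valuation L Γ₀} {a : L}

/-- A small abscissa forces reduction to the node. -/
lemma inNode_of_vx_lt (ha : v a < 1) {x y : L} (h : (nodal a).toAffine.Nonsingular x y)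
    (hx : v x < 1) : InNode v a (.some x y h) := by
  refine ⟨hx, ?_⟩
  have he := (nodal_equation a).1 h.1
  by_contra hy
  push Not at hy
  have hyx : v (y + x) = v y := v.map_add_eq_of_lt_left (hx.trans_le hy)
  have h1 : 1 ≤ v (y * (y + x)) := by rw [map_mul, hyx]; exact one_le_mul hy hy
  rw [he] at h1
  exact absurd (v.map_add_lt (by rw [map_pow]; exact pow_lt_one₀ zero_le hx (by norm_num)) ha)
    (not_lt.2 h1)

end Node

section NodalCubic

variable {k : Type*} [Field k]

lemma nodal_zero_values :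
    (nodal (0 : k)).Ψ₂Sq.eval 0 = 0 ∧ (nodal (0 : k)).Ψ₃.eval 0 = 0 ∧
      (nodal (0 : k)).preΨ₄.eval 0 = 0 := by
  simp [WeierstrassCurve.Ψ₂Sq, WeierstrassCurve.Ψ₃, WeierstrassCurve.preΨ₄,
    WeierstrassCurve.b₂, WeierstrassCurve.b₄, WeierstrassCurve.b₆, WeierstrassCurve.b₈, nodal]

/-- The division polynomials of the nodal cubic vanish at the node. -/
lemma preΨ'_nodal_zero_eval : ∀ n : ℕ, 3 ≤ n → ((nodal (0 : k)).preΨ' n).eval 0 = 0 := by
  intro n
  induction n using Nat.strong_induction_on with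
  | _ n ih =>
    intro hn
    obtain ⟨-, h3, h4⟩ := nodal_zero_values (k := k)
    rcases (by omega : n = 3 ∨ n = 4 ∨ 5 ≤ n) with rfl | rfl | h5
    · rw [WeierstrassCurve.preΨ'_three]; exact h3
    · rw [WeierstrassCurve.preΨ'_four]; exact h4
    obtain ⟨m, rfl | rfl⟩ : ∃ m, n = 2 * m ∨ n = 2 * m + 1 := ⟨n / 2, by omega⟩
    · obtain ⟨j, rfl⟩ : ∃ j, m = j + 3 := ⟨m - 3, by omega⟩
      rw [WeierstrassCurve.preΨ'_even, eval_sub, eval_mul, eval_mul, eval_mul, eval_mul,
        ih (j + 3) (by omega) (by omega)]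
      ring
    · obtain ⟨j, rfl⟩ : ∃ j, m = j + 2 := ⟨m - 2, by omega⟩
      rw [WeierstrassCurve.preΨ'_odd, eval_sub, eval_mul, eval_mul, eval_mul, eval_mul, eval_pow,
        eval_pow, ih (j + 4) (by omega) (by omega), ih (j + 3) (by omega) (by omega)]
      ring

lemma ΨSq_nodal_zero_eval {n : ℕ} (hn : 2 ≤ n) :
    ((nodal (0 : k)).ΨSq (n : ℤ)).eval 0 = 0 := by
  rw [ΨSq_ofNat]
  rcases (by omega : n = 2 ∨ 3 ≤ n) with rfl | h3
  · simp [nodal_zero_values]
  · rw [eval_mul, eval_pow, preΨ'_nodal_zero_eval n h3]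
    ring

/-- The division polynomials of the nodal cubic are nonzero for prime index. -/
lemma ΨSq_nodal_zero_ne_zero [DecidableEq k] [IsAlgClosed k] {ℓ : ℕ} (hℓ : ℓ.Prime) :
    (nodal (0 : k)).ΨSq (ℓ : ℤ) ≠ 0 := by
  intro h0
  rcases eq_or_ne ℓ 2 with rfl | h2
  · have h := congrArg (fun f : k[X] => f.coeff 2) h0
    simp [WeierstrassCurve.ΨSq_two, WeierstrassCurve.Ψ₂Sq, WeierstrassCurve.b₂,
      WeierstrassCurve.b₄, WeierstrassCurve.b₆, nodal] at h
  rcases eq_or_ne ℓ 3 with rfl | h3
  · rw [Nat.cast_ofNat, WeierstrassCurve.ΨSq_three, pow_eq_zero_iff two_ne_zero] at h0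
    have h := congrArg (fun f : k[X] => f.coeff 3) h0
    simp [WeierstrassCurve.Ψ₃, WeierstrassCurve.b₂, WeierstrassCurve.b₄, WeierstrassCurve.b₆,
      WeierstrassCurve.b₈, nodal] at h
  -- a nonsingular point whose order is not `ℓ`
  obtain ⟨x, y, h, d, hd1, hdℓ, hd⟩ : ∃ (x y : k) (h : (nodal (0 : k)).toAffine.Nonsingular x y)
      (d : ℕ), d ≠ 1 ∧ Nat.Coprime d ℓ ∧ d • Affine.Point.some x y h = 0 := by
    by_cases hk2 : (2 : k) = 0
    · obtain ⟨y, hy⟩ := exists_quadratic_root (1 : k) (-1)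
      have h : (nodal (0 : k)).toAffine.Nonsingular 1 y := by
        rw [Affine.nonsingular_iff']
        refine ⟨(nodal_equation _).2 (by linear_combination hy), Or.inr ?_⟩
        simp [nodal, hk2]
      refine ⟨1, y, h, 3, by norm_num, (Nat.coprime_primes Nat.prime_three hℓ).2 h3.symm, ?_⟩
      rw [EllTorsion.nsmul_eq_zero_iff h, Nat.cast_ofNat, WeierstrassCurve.ΨSq_three, eval_pow,
        pow_eq_zero_iff two_ne_zero]
      simp [WeierstrassCurve.Ψ₃, WeierstrassCurve.b₂, WeierstrassCurve.b₄, WeierstrassCurve.b₆,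
        WeierstrassCurve.b₈, nodal]
      linear_combination (2 : k) * hk2
    · have h4 : (4 : k) ≠ 0 := by rw [show (4 : k) = 2 * 2 by norm_num]; exact mul_ne_zero hk2 hk2
      have h8 : (8 : k) ≠ 0 := by rw [show (8 : k) = 4 * 2 by norm_num]; exact mul_ne_zero h4 hk2
      have h16 : (16 : k) ≠ 0 := by rw [show (16 : k) = 4 * 4 by norm_num]; exact mul_ne_zero h4 h4
      have hy : 2 * (8 : k)⁻¹ + -(4 : k)⁻¹ = 0 := by field_simp; ring
      have h : (nodal (0 : k)).toAffine.Nonsingular (-(4 : k)⁻¹) (8 : k)⁻¹ := by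
        rw [Affine.nonsingular_iff']
        have e4 : (4 : k)⁻¹ = 2 * (8 : k)⁻¹ := by field_simp; norm_num
        have e8 : (8 : k) * (8 : k)⁻¹ = 1 := mul_inv_cancel₀ h8
        refine ⟨(nodal_equation _).2 (by
          rw [e4]; linear_combination (8 : k)⁻¹ ^ 2 * e8), Or.inl ?_⟩
        simp only [nodal, one_mul, mul_zero, zero_mul, add_zero]
        intro hc
        rw [e4] at hc
        have : (16 : k) * (8 : k)⁻¹ ^ 2 = 0 := by
          linear_combination (-4 : k) * hc + (-4 * (8 : k)⁻¹) * e8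
        exact mul_ne_zero h16 (pow_ne_zero 2 (inv_ne_zero h8)) this
      refine ⟨_, _, h, 2, by norm_num, (Nat.coprime_primes Nat.prime_two hℓ).2 h2.symm, ?_⟩
      rw [two_nsmul]
      refine Affine.Point.add_self_of_Y_eq ?_
      rw [nodal_negY]
      linear_combination hy
  have hℓP : ℓ • Affine.Point.some x y h = 0 := by
    rw [EllTorsion.nsmul_eq_zero_iff h, h0, eval_zero]
  have := Nat.dvd_gcd (addOrderOf_dvd_of_nsmul_eq_zero hd) (addOrderOf_dvd_of_nsmul_eq_zero hℓP)
  rw [hdℓ, Nat.dvd_one, AddMonoid.addOrderOf_eq_one_iff] at this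
  exact Affine.Point.some_ne_zero h this

end NodalCubic

section Torsion

variable {L : Type*} [Field L] [IsAlgClosed L] [DecidableEq L] (A : ValuationSubring L)

omit [DecidableEq L] in
/-- The residue field of a valuation subring of an algebraically closed field is algebraically
closed. -/
lemma isAlgClosed_residueField : IsAlgClosed (IsLocalRing.ResidueField A) := by
  refine IsAlgClosed.of_exists_root _ fun p hp hirr => ?_
  obtain ⟨P, hPmap, hPdeg, hPm⟩ :=
    lifts_and_degree_eq_and_monic (f := IsLocalRing.residue A)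
      (mem_lifts_of_surjective IsLocalRing.residue_surjective p) hp
  obtain ⟨x, hx⟩ := IsAlgClosed.exists_root (P.map A.subtype) (by
    rw [hPm.degree_map, hPdeg]; exact degree_pos_of_irreducible hirr |>.ne')
  have hxA : x ∈ A := by
    by_contra hxA
    have hx1 : 1 < A.valuation x :=
      not_le.1 fun h => hxA ((A.valuation_le_one_iff x).1 h)
    rw [IsRoot, eval_map] at hx
    have hlt : A.valuation (eval₂ A.subtype x P - x ^ P.natDegree) < A.valuation (x ^ P.natDegree) := by
      rw [eval₂_eq_sum_range, Finset.sum_range_succ, hPm.coeff_natDegree, map_one, one_mul,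
        add_sub_cancel_right]
      refine A.valuation.map_sum_lt (pow_ne_zero _ (A.valuation.ne_zero_iff.1
        (lt_trans zero_lt_one hx1).ne') |> A.valuation.ne_zero_iff.2) fun i hi => ?_
      rw [map_mul, map_pow, map_pow]
      refine lt_of_le_of_lt (mul_le_of_le_one_left zero_le (A.valuation_le_one (P.coeff i))) ?_
      exact pow_lt_pow_right₀ hx1 (Finset.mem_range.1 hi)
    rw [hx, zero_sub, Valuation.map_neg] at hlt
    exact lt_irrefl _ hlt
  refine ⟨IsLocalRing.residue A ⟨x, hxA⟩, ?_⟩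
  rw [← hPmap, eval_map, eval₂_at_apply]
  have h0 : P.eval ⟨x, hxA⟩ = 0 := by
    refine Subtype.coe_injective ?_
    show A.subtype (P.eval ⟨x, hxA⟩) = A.subtype 0
    rw [← eval₂_at_apply, map_zero, ← eval_map]
    exact hx
  rw [h0, map_zero]

/-- For every prime `ℓ` some point of order `ℓ` of the nodal model reduces to the node. -/
theorem exists_torsion_inNode {a : L} (ha0 : a ≠ 0) (ha : A.valuation a < 1) {ℓ : ℕ}
    (hℓ : ℓ.Prime) : ∃ P : (nodal a).toAffine.Point, ℓ • P = 0 ∧ InNode A.valuation a P := by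
  classical
  have := isAlgClosed_residueField A
  have haA : a ∈ A := (A.valuation_le_one_iff a).1 ha.le
  set WA : WeierstrassCurve A := ⟨1, 0, 0, 0, ⟨a, haA⟩⟩ with hWA
  have hL : WA.map A.subtype = nodal a := by
    ext <;> simp [hWA, nodal, WeierstrassCurve.map]
  have hk : WA.map (IsLocalRing.residue A) = nodal (0 : IsLocalRing.ResidueField A) := by
    have : IsLocalRing.residue A ⟨a, haA⟩ = 0 := by
      rw [IsLocalRing.residue_eq_zero_iff, A.valuation_lt_one_iff]; exact ha
    ext <;> simp [hWA, nodal, WeierstrassCurve.map, this]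
  set f := (nodal a).ΨSq (ℓ : ℤ) with hf
  have hcoeff : ∀ i, f.coeff i = ((WA.ΨSq (ℓ : ℤ)).coeff i : L) := fun i => by
    rw [hf, ← hL, map_ΨSq, coeff_map]; rfl
  have hred : ∀ i, IsLocalRing.residue A ((WA.ΨSq (ℓ : ℤ)).coeff i) =
      ((nodal (0 : IsLocalRing.ResidueField A)).ΨSq (ℓ : ℤ)).coeff i := fun i => by
    rw [← hk, map_ΨSq, coeff_map]
  obtain ⟨i, hi⟩ : ∃ i, ((nodal (0 : IsLocalRing.ResidueField A)).ΨSq (ℓ : ℤ)).coeff i ≠ 0 := by
    by_contra hc
    push Not at hc
    exact ΨSq_nodal_zero_ne_zero hℓ (Polynomial.ext fun i => by simpa using hc i)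
  have hi1 : A.valuation (f.coeff i) = 1 := by
    rw [← hred, Ne, IsLocalRing.residue_eq_zero_iff, A.valuation_lt_one_iff] at hi
    rw [hcoeff]
    exact le_antisymm (A.valuation_le_one _) (not_lt.1 hi)
  have h0 : A.valuation (f.coeff 0) < 1 := by
    rw [hcoeff, ← A.valuation_lt_one_iff, ← IsLocalRing.residue_eq_zero_iff, hred,
      coeff_zero_eq_eval_zero]
    exact ΨSq_nodal_zero_eval hℓ.two_le
  obtain ⟨x, hx, hxlt⟩ := exists_root_lt_one A.valuation hi1 h0
  have : (nodal a).toAffine.IsElliptic :=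
    ⟨isUnit_iff_ne_zero.2 (nodal_Δ_ne_zero (v := A.valuation) ha0 ha)⟩
  obtain ⟨y, hy⟩ := EllTorsion.exists_point (W := (nodal a).toAffine) x
  exact ⟨.some x y hy, (EllTorsion.nsmul_eq_zero_iff hy ℓ).2 hx, inNode_of_vx_lt ha hy hxlt⟩

end Torsion

end Fermat.Agent.EllLocal.Mult
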