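import Fermat.Agent.EllLocal.Mult.Inertia
import Fermat.Agent.EllLocal.TateDet
import Fermat.Agent.BigImage.RootsOfUnity

/-!
# The Tate module at a prime of multiplicative reduction

It is strictly ordinary at the residual characteristic; inertia acts unipotently elsewhere.
-/

set_option autoImplicit false

namespace Fermat.Agent.EllLocal.Mult

open WeierstrassCurve Fermat.Agent.MultRed
open scoped WeierstrassCurve.Affine

local notation "ℚ̄" => AlgebraicClosure ℚ
set_option quotPrecheck false in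
local notation "T(" W "," p ")" => tateModule (WeierstrassCurve.map W (Int.castRingHom ℚ)) p

variable {W : WeierstrassCurve ℤ} {A : ValuationSubring ℚ̄} {q p : ℕ}

lemma isElliptic_map (hΔ : W.Δ ≠ 0) : (W.map (Int.castRingHom ℚ)).IsElliptic := by
  refine ⟨?_⟩
  rw [WeierstrassCurve.map_Δ, isUnit_iff_ne_zero]
  simpa using hΔ

variable [hp : Fact p.Prime] [(W.map (Int.castRingHom ℚ)).IsElliptic]

omit [(W.map (Int.castRingHom ℚ)).IsElliptic] in
/-- A compatible system on the line. -/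
theorem exists_line_system (h : IsMultAt W A q) :
    ∃ f : T(W, p), (∀ n, W.InZeroComponentAt A (f.1 n)) ∧ f.1 1 ≠ 0 := by
  classical
  obtain ⟨P, -, hP, -, hord, hP0, -, -, -⟩ := exists_adapted_generators h hp.out 1
  rw [pow_one] at hord hP
  let K := {R : PtQ (W.map (Int.castRingHom ℚ)) //
    W.InZeroComponentAt A R ∧ ∃ k, p ^ k • R = 0}
  have hex : ∀ R : K, ∃ S : K, p • S.1 = R.1 := fun R => by
    obtain ⟨k, hk⟩ := R.2.2
    obtain ⟨S, hS, hS0, hS'⟩ := exists_nsmul_eq_mem_line h hp.out R.2.1 hk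
    exact ⟨⟨S, hS0, k + 1, hS'⟩, hS⟩
  choose lift hlift using hex
  let g : ℕ → K := fun k => Nat.rec ⟨P, hP0, 1, by rw [pow_one]; exact hP⟩ (fun _ R => lift R) k
  let f : ℕ → PtQ (W.map (Int.castRingHom ℚ)) := fun n => if n = 0 then 0 else (g (n - 1)).1
  have hf : ∀ n, p • f (n + 1) = f n := by
    rintro (_ | n)
    · simpa [f, g] using hP
    · simpa [f] using hlift (g n)
  have hfp : ∀ n, p ^ n • f n = 0 := by
    intro n
    induction n with
    | zero => simp [f]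
    | succ n ih => rw [pow_succ, mul_nsmul', hf, ih]
  refine ⟨⟨f, fun n => ⟨hfp n, hf n⟩⟩, fun n => ?_, ?_⟩
  · rcases n with _ | n
    · simp only [f, if_pos]; exact inZeroComponentAt_zero
    · simpa [f] using (g n).2.1
  · show P ≠ 0
    intro e
    rw [e, addOrderOf_zero] at hord
    exact hp.out.one_lt.ne hord

/-- A basis of the Tate module adapted to the line. -/
theorem exists_adapted_basis (h : IsMultAt W A q) :
    ∃ b : Module.Basis (Fin 2) ℤ_[p] T(W, p),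
      ∀ (f : T(W, p)) (n : ℕ),
        W.InZeroComponentAt A (f.1 n) ↔ PadicInt.toZModPow n (b.repr f 1) = 0 := by
  classical
  obtain ⟨e₁, he₁, he₁0⟩ := exists_line_system (p := p) h
  obtain ⟨P₁, P₂, hP₁, hP₂, hord, hP₁0, hline, hgen, hdiv⟩ := exists_adapted_generators h hp.out 1
  rw [pow_one] at hP₁ hP₂ hord hline hgen hdiv
  obtain ⟨c, hc⟩ := hline (e₁.1 1) (by simpa using tateModule_pow e₁ 1) (he₁ 1)
  have hcp : ¬ p ∣ c := fun ⟨d, hd⟩ => he₁0 (by
    rw [hc, hd, mul_comm, mul_nsmul', hP₁, nsmul_zero])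
  obtain ⟨e₂, he₂⟩ := exists_apply_eq (W := W.map (Int.castRingHom ℚ)) (p := p) 1 (P := P₂)
    (by rw [pow_one]; exact hP₂)
  obtain ⟨b, hb₀, hb₁⟩ := exists_basis_of_gen_one e₁ e₂ fun P hP => by
    obtain ⟨i, j, rfl⟩ := hgen P hP
    obtain ⟨d, -, hd⟩ := Nat.exists_mul_mod_eq_one_of_coprime
      ((Nat.Prime.coprime_iff_not_dvd hp.out).2 hcp).symm hp.out.one_lt
    refine ⟨i * d, j, ?_⟩
    rw [hc, he₂, ← mul_nsmul', mul_assoc, mul_comm d c, mul_nsmul' _ i,
      nsmul_eq_mod_nsmul (c * d) hP₁, hd, one_nsmul]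
  refine ⟨b, fun f n => ?_⟩
  rw [apply_eq_coords b f n, hb₀, hb₁]
  have hkey : ∀ m : ℕ, W.InZeroComponentAt A (m • e₂.1 n) ↔ p ^ n ∣ m := by
    intro m
    let π := QuotientAddGroup.mk' (e0Sub h)
    have hiff : ∀ R, π R = 0 ↔ W.InZeroComponentAt A R := fun R =>
      (QuotientAddGroup.eq_zero_iff R).trans (mem_e0Sub h)
    have hordQ : addOrderOf (π (e₂.1 n)) = p ^ n := by
      rcases n with _ | n
      · rw [pow_zero, AddMonoid.addOrderOf_eq_one_iff,
          show e₂.1 0 = 0 by simpa using tateModule_pow e₂ 0, map_zero]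
      refine addOrderOf_eq_prime_pow (fun hc => ?_)
        (by rw [← map_nsmul, tateModule_pow, map_zero])
      rw [← map_nsmul, hiff] at hc
      have hpa := tateModule_pow_add e₂ 1 n
      rw [Nat.add_comm 1 n] at hpa
      rw [hpa, he₂] at hc
      exact hp.out.not_dvd_one (hdiv 1 (by rwa [one_nsmul]))
    rw [← hiff, map_nsmul, ← addOrderOf_dvd_iff_nsmul_eq_zero, hordQ]
  rw [← mem_e0Sub h, (e0Sub h).add_mem_cancel_left ((e0Sub h).nsmul_mem (he₁ n) _),
    mem_e0Sub h, hkey, ← ZMod.natCast_eq_zero_iff, coeffNat_cast]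

variable {b : Module.Basis (Fin 2) ℤ_[p] T(W, p)}

omit [(W.map (Int.castRingHom ℚ)).IsElliptic] in
lemma mem_span_iff (v : T(W, p)) : v ∈ (ℤ_[p] ∙ b 0) ↔ b.repr v 1 = 0 := by
  rw [Submodule.mem_span_singleton]
  constructor
  · rintro ⟨c, rfl⟩; simp
  · intro h
    refine ⟨b.repr v 0, ?_⟩
    conv_rhs => rw [← b.sum_repr v, Fin.sum_univ_two, h, zero_smul, add_zero]

omit [(W.map (Int.castRingHom ℚ)).IsElliptic] in
lemma mem_line_iff
    (hb : ∀ (f : T(W, p)) (n : ℕ),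
      W.InZeroComponentAt A (f.1 n) ↔ PadicInt.toZModPow n (b.repr f 1) = 0)
    (v : T(W, p)) : v ∈ (ℤ_[p] ∙ b 0) ↔ ∀ n, W.InZeroComponentAt A (v.1 n) := by
  rw [mem_span_iff]
  refine ⟨fun h n => (hb v n).2 (by rw [h, map_zero]), fun h => PadicInt.ext_of_toZModPow.1 fun n => ?_⟩
  rw [map_zero]; exact (hb v n).1 (h n)

omit [(W.map (Int.castRingHom ℚ)).IsElliptic] in
/-- The decomposition group on the Tate module. -/
theorem tateAct_shape (h : IsMultAt W A q)
    (hb : ∀ (f : T(W, p)) (n : ℕ),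
      W.InZeroComponentAt A (f.1 n) ↔ PadicInt.toZModPow n (b.repr f 1) = 0)
    {σ : ℚ̄ ≃ₐ[ℚ] ℚ̄} (hσ : σ ∈ A.decompositionSubgroup ℚ) :
    (∀ v : T(W, p), tateAct σ v - sign W A σ • v ∈ (ℤ_[p] ∙ b 0)) ∧
    ∃ x : ℤ_[p], (∀ w ∈ (ℤ_[p] ∙ b 0), tateAct σ w = x • w) ∧
      ∀ n a : ℕ, (∀ μ : ℚ̄, μ ^ p ^ n = 1 → σ μ = μ ^ a) →
        PadicInt.toZModPow n x = (sign W A σ : ZMod (p ^ n)) * a := by
  have h0 : ∀ n, W.InZeroComponentAt A ((b 0).1 n) :=
    (mem_line_iff hb _).1 (Submodule.mem_span_singleton_self _)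
  refine ⟨fun v => (mem_line_iff hb _).2 fun n => smul_sub_sign_smul_mem h hσ (v.1 n), ?_⟩
  have hmem : tateAct σ (b 0) ∈ (ℤ_[p] ∙ b 0) :=
    (mem_line_iff hb _).2 fun n => smul_mem_e0 h hσ (h0 n)
  obtain ⟨x, hx⟩ := Submodule.mem_span_singleton.1 hmem
  refine ⟨x, fun w hw => ?_, fun n a ha => ?_⟩
  · obtain ⟨c, rfl⟩ := Submodule.mem_span_singleton.1 hw
    rw [map_smul, ← hx, smul_smul, smul_smul, mul_comm]
  have hord : addOrderOf ((b 0).1 n) = p ^ n := by
    rcases n with _ | n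
    · rw [pow_zero, AddMonoid.addOrderOf_eq_one_iff]
      simpa using tateModule_pow (b 0) 0
    refine addOrderOf_eq_prime_pow (fun hc => ?_) (tateModule_pow (b 0) (n + 1))
    have hpa := tateModule_pow_add (b 0) 1 n
    rw [Nat.add_comm 1 n] at hpa
    rw [hpa] at hc
    obtain ⟨g, hg⟩ := exists_eq_pow_smul_of_apply_eq_zero (b 0) 1 hc
    have := congrArg (fun v => b.repr v 0) hg
    simp only [map_smul, Finsupp.smul_apply, smul_eq_mul, Module.Basis.repr_self,
      Finsupp.single_eq_same, pow_one] at this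
    exact PadicInt.p_nonunit (p := p) (IsUnit.of_mul_eq_one _ this)
  obtain ⟨e, he⟩ : ∃ e : ℕ, (e : ZMod (p ^ n)) = (sign W A σ : ZMod (p ^ n)) :=
    ⟨(sign W A σ : ZMod (p ^ n)).val, ZMod.natCast_zmod_val _⟩
  have key : coeffNat x n • (b 0).1 n = (e * a) • (b 0).1 n := by
    rw [← smul_apply, hx, show (tateAct σ (b 0)).1 n = σ • (b 0).1 n from rfl,
      smul_eq_of_mem_line h hp.out hσ ha (h0 n) (tateModule_pow _ n), mul_nsmul',
      ← natCast_zsmul _ e, zsmul_eq_zsmul_iff_modEq]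
    refine Int.ModEq.of_dvd (Int.natCast_dvd_natCast.2 (addOrderOf_dvd_of_nsmul_eq_zero
      (by rw [smul_comm, tateModule_pow, nsmul_zero]))) ?_
    rw [← ZMod.intCast_eq_intCast_iff]
    simpa using he.symm
  rw [nsmul_eq_nsmul_iff_modEq, hord, ← ZMod.natCast_eq_natCast_iff, coeffNat_cast,
    Nat.cast_mul, he] at key
  exact key

/-- The Tate module at a prime of multiplicative reduction, with the residual prime arbitrary. -/
theorem exists_tate_shape (h : IsMultAt W A q) :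
    ∃ b : Module.Basis (Fin 2) ℤ_[p] T(W, p),
      (∀ σ ∈ A.inertiaSubgroupIn ℚ, ∀ v, tateAct σ v - v ∈ (ℤ_[p] ∙ b 0)) ∧
      ∀ σ ∈ A.decompositionSubgroup ℚ,
        (∀ v, tateAct σ v - sign W A σ • v ∈ (ℤ_[p] ∙ b 0)) ∧
        ∃ x : ℤ_[p], (∀ w ∈ (ℤ_[p] ∙ b 0), tateAct σ w = x • w) ∧
          ∀ n a : ℕ, (∀ μ : ℚ̄, μ ^ p ^ n = 1 → σ μ = μ ^ a) →
            PadicInt.toZModPow n x = (sign W A σ : ZMod (p ^ n)) * a := by
  obtain ⟨b, hb⟩ := exists_adapted_basis (p := p) h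
  refine ⟨b, fun σ hσ v => ?_, fun σ hσ => tateAct_shape h hb hσ⟩
  have := (tateAct_shape h hb (inertia_mem_decomposition hσ)).1 v
  rwa [sign_inertia h hσ, one_zsmul] at this

/-- Multiplicative reduction at `q ≠ p`: inertia is unipotent on the Tate module. -/
theorem tateRep_isUnipotentOnInertiaAt (hq : q.Prime) (hqp : q ≠ p) (hΔ0 : W.Δ ≠ 0)
    (hΔ : (q : ℤ) ∣ W.Δ) (hc₄ : ¬ (q : ℤ) ∣ W.c₄) :
    (tateRep (W.map (Int.castRingHom ℚ)) p).IsUnipotentOnInertiaAt q := by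
  intro P hP σ hσ
  have h : IsMultAt W P q := ⟨hq, hP, hΔ0, hΔ, hc₄⟩
  obtain ⟨b, hI, hD⟩ := exists_tate_shape (p := p) h
  obtain ⟨-, x, hx, hxa⟩ := hD σ (inertia_mem_decomposition hσ)
  have hx1 : x = 1 := PadicInt.ext_of_toZModPow.1 fun n => by
    rw [map_one, hxa n 1 (fun μ hμ => ?_), sign_inertia h hσ, Int.cast_one, one_mul, Nat.cast_one]
    rw [pow_one]
    exact BigImage.inertia_root_of_unity hq hP hσ (fun hd => hqp ((Nat.prime_dvd_prime_iff_eq hq hp.out).1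
      (hq.dvd_of_dvd_pow hd))) hμ
  have e0 : tateAct σ (b 0) = b 0 := by
    rw [hx _ (Submodule.mem_span_singleton_self _), hx1, one_smul]
  have e1 : b.repr (tateAct σ (b 1)) 1 = 1 := by
    have := (mem_span_iff _).1 (hI σ hσ (b 1))
    rw [map_sub, Finsupp.sub_apply, sub_eq_zero] at this
    rw [this, Module.Basis.repr_self, Finsupp.single_eq_same]
  have := Module.Free.of_basis b
  have := Module.Finite.of_basis b
  show LinearMap.charpoly (tateAct σ : T(W, p) →ₗ[ℤ_[p]] T(W, p)) = _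
  rw [← LinearMap.charpoly_toMatrix _ b, Matrix.charpoly, Matrix.det_fin_two,
    Matrix.charmatrix_apply_eq, Matrix.charmatrix_apply_eq, Matrix.charmatrix_apply_ne _ _ _ (by decide),
    Matrix.charmatrix_apply_ne _ _ _ (by decide), LinearMap.toMatrix_apply, LinearMap.toMatrix_apply,
    LinearMap.toMatrix_apply, LinearMap.toMatrix_apply, e0, e1, Module.Basis.repr_self,
    Finsupp.single_eq_same, Finsupp.single_eq_of_ne (by decide), map_one]
  simp [sq]

end Fermat.Agent.EllLocal.Mult
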